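/-
S45lib / KMval / StepRes  (helper8)  --  Project J, the RESIDUE side of the step data
(`Chain.StepDataK`) for the modular tower

All residue function fields are `κ = FRes A M` (a `kW`-algebra, `kW = ResidueField (Wfix A)`), and
the residue embedding of a top component over a low one is either the identity ("id-fibres") or the
Frobenius substitution `V = VqR hA` ("`V`-fibres", purely inseparable of degree `q`).

* `ιresK hA isV`  := `if isV then VqR hA else RingHom.id κ`;
* `ιresK_const`   : it fixes the constants `kW`                         (field `res_const`);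
* `finiteHom_ιresK`, `finrankHom_ιresK` (`= if isV then q else 1`)     (fields `res_fin`, `res_deg`);
* `ιresK_resNorm` : `ιres (N_ιres z) = z ^ (if isV then q else 1)`       (field `res_norm`);
* `pt_alpha`, `pt_beta` : the field `pt` for the multipoints `SS.xK` of the levels `j + 1` and `j`,
  patterns `aAlpha j b = b - 1` (`V`-fibres `j + 2 ≤ 2 b`, `cN = id`) and `aBeta j b = min b j`
  (`V`-fibres `2 b ≤ j`, `cN = SS.ssPerm`).
-/
import Mathlib
import Fermat.Agent.S45lib.Chain.NormInst
import Fermat.Agent.S36lib.J.TripleOrd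
import Fermat.Agent.S36lib.Norm.ResInst
import Fermat.Agent.S36lib.Inst.Ctx
import Fermat.Agent.S45lib.SS.Points

set_option autoImplicit false
set_option linter.unusedSectionVars false
set_option linter.unusedVariables false
set_option linter.style.haveILetI false

noncomputable section

namespace Fermat.Agent.S45lib.KMval

open AlgebraicCurve ModularCurve IsLocalRing
open Fermat.Agent.S18lib Fermat.Agent.ProgramR
open Fermat.Agent.LSb.Unit (VqR)
open Fermat.Agent.S36lib Fermat.Agent.S36lib.Inst Fermat.Agent.S36lib.Desc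
open Fermat.Agent.S36lib.Norm (FiniteHom finrankHom)
open Fermat.Agent.S45lib.Chain

local notation "Qb" => AlgebraicClosure ℚ

variable {M q : ℕ} [NeZero M] [NeZero q] [hq : Fact q.Prime] {A : ValuationSubring Qb}

local notation "kA" => IsLocalRing.ResidueField A
local notation "kW" => IsLocalRing.ResidueField (Wfix A)

/-- the residue embedding of a fibre of the step: `V` or the identity -/
def ιresK (hA : A.LiesOverPrime q) (isV : Prop) [Decidable isV] : FRes A M →+* FRes A M :=
  if isV then VqR hA else RingHom.id _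

theorem ιresK_pos (hA : A.LiesOverPrime q) {isV : Prop} [Decidable isV] (h : isV) :
    ιresK (M := M) hA isV = VqR hA := if_pos h

theorem ιresK_neg (hA : A.LiesOverPrime q) {isV : Prop} [Decidable isV] (h : ¬ isV) :
    ιresK (M := M) hA isV = RingHom.id _ := if_neg h

/-- `V` fixes the constants `kW` -/
theorem VqR_algebraMap_resW (hA : A.LiesOverPrime q) (c : kW) :
    VqR hA (algebraMap kW (FRes A M) c) = algebraMap kW (FRes A M) c := by
  rw [algebraMap_resW, LSb.Unit.VqR_algebraMap]

theorem ιresK_const (hA : A.LiesOverPrime q) (isV : Prop) [Decidable isV] (c : kW) :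
    ιresK hA isV (algebraMap kW (FRes A M) c) = algebraMap kW (FRes A M) c := by
  by_cases h : isV
  · rw [ιresK_pos hA h, VqR_algebraMap_resW]
  · rw [ιresK_neg hA h]; rfl

/-- `V (N_V z) = z ^ q` -/
theorem VqR_resNorm (hqM : ¬ q ∣ M) (hA : A.LiesOverPrime q) (z : FRes A M) :
    VqR hA (resNorm (VqR hA) z) = z ^ q := by
  haveI := Norm.charP_FRes (M := M) hA
  exact resNorm_of_insep (VqR hA) q (J.finrankHom_VqR hqM hA)
    (fun z => ⟨Norm.frobCoeffR hA z, Norm.VqR_frobCoeffR hA z⟩) z

theorem finiteHom_ιresK (hqM : ¬ q ∣ M) (hA : A.LiesOverPrime q) (isV : Prop) [Decidable isV] :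
    FiniteHom (ιresK (M := M) hA isV) := by
  by_cases h : isV
  · rw [ιresK_pos hA h]; exact J.finiteHom_VqR hqM hA
  · rw [ιresK_neg hA h]
    exact (resNorm_of_bijective (RingHom.id (FRes A M)) Function.bijective_id).1

theorem finrankHom_ιresK (hqM : ¬ q ∣ M) (hA : A.LiesOverPrime q) (isV : Prop) [Decidable isV] :
    finrankHom (ιresK (M := M) hA isV) = if isV then q else 1 := by
  by_cases h : isV
  · rw [ιresK_pos hA h, if_pos h]; exact J.finrankHom_VqR hqM hA
  · rw [ιresK_neg hA h, if_neg h]
    exact (resNorm_of_bijective (RingHom.id (FRes A M)) Function.bijective_id).2.1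

theorem ιresK_resNorm (hqM : ¬ q ∣ M) (hA : A.LiesOverPrime q) (isV : Prop) [Decidable isV]
    (z : FRes A M) :
    ιresK hA isV (resNorm (ιresK hA isV) z) = z ^ (if isV then q else 1) := by
  by_cases h : isV
  · rw [ιresK_pos hA h, if_pos h]; exact VqR_resNorm hqM hA z
  · rw [ιresK_neg hA h, if_neg h]
    exact (resNorm_of_bijective (RingHom.id (FRes A M)) Function.bijective_id).2.2 z

/-! ### the field `pt` -/

open Fermat.Agent.LSb (HasValueAt)

/-- the field `pt` along `α` (top component `b` over the low component `b - 1`, `cN = id`) -/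
theorem pt_alpha (hqM : ¬ q ∣ M) (hA : A.LiesOverPrime q) (j b : ℕ)
    (c : Fin (nS M q A hqM hA)) (z : FRes A M) (v : kW)
    (hv : HasValueAt (SS.xK M q A hqM hA (j + 1) b c) (ιresK hA (j + 2 ≤ 2 * b) z) v) :
    HasValueAt (SS.xK M q A hqM hA j (b - 1) c) z v := by
  by_cases h : j + 2 ≤ 2 * b
  · rw [ιresK_pos hA h] at hv
    exact SS.pt_xK_alpha_of_lt M q A hqM hA (by omega) c z v hv
  · rw [ιresK_neg hA h] at hv
    rw [SS.xK_alpha_of_le M q A hqM hA (by omega)]
    exact hv

/-- the field `pt` along `β` (top component `b ≤ j + 1` over the low component `min b j`,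
`cN = SS.ssPerm`) -/
theorem pt_beta (hqM : ¬ q ∣ M) (hA : A.LiesOverPrime q) (j b : ℕ) (hb : b ≤ j + 1)
    (c : Fin (nS M q A hqM hA)) (z : FRes A M) (v : kW)
    (hv : HasValueAt (SS.xK M q A hqM hA (j + 1) b c) (ιresK hA (2 * b ≤ j) z) v) :
    HasValueAt (SS.xK M q A hqM hA j (min b j) (SS.ssPerm M q A hqM hA c)) z v := by
  by_cases h : 2 * b ≤ j
  · rw [ιresK_pos hA h] at hv
    exact SS.pt_xK_beta_of_lt M q A hqM hA h c z v hv
  · rw [ιresK_neg hA h] at hv
    rw [SS.xK_beta_of_le M q A hqM hA (by omega) hb]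
    exact hv

end Fermat.Agent.S45lib.KMval
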