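/-
S45lib / KMval / GaussRow  (helper8)  --  Project J, Tower/Places: the abstract raw row

* `gauss_row` : fields `F`, `F'` with `ι : F →+* L((t))`, `ι' : F' →+* L((t))`, a homomorphism
  `ψ : F →+* F'` and an endomorphism `T` of `L((t))` compatible with `A((t))`, `k((t))`
  (helper2's `Gauss.CoeffCompat A T TA Tk`) such that `ι' ∘ ψ = T ∘ ι`:
  `y ∈ gaussVS ι → ψ y ∈ gaussVS ι'` and `raw red' (ψ y) = Tk (raw red y)`
  (the shape of the fields `alpha_mem/alpha_red`, `beta_mem/beta_red` of `TowerRaw(Min)`);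
* `coe_VqR` : the field `hV` for `Ω = kA((t))`, `incl = coe`, `VΩ = qExpand kA q`;
* `coe_algebraMap_kW` : the constants of `FRes A M` over the residue field of `Wfix A`
  (for the field `const_red`).
-/
import Mathlib
import Fermat.Agent.S45lib.Gauss.Subst
import Fermat.Agent.S36lib.Desc2.Inst
import Fermat.Agent.LSb.Unit.Instance

set_option autoImplicit false
set_option linter.unusedSectionVars false
set_option linter.unusedVariables false

noncomputable section

namespace Fermat.Agent.S45lib.KMval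

open HahnSeries IsLocalRing ModularCurve
open Fermat.Agent.S45lib.Gauss

section Abstract

variable {L : Type*} [Field L] (A : ValuationSubring L)
variable {F F' : Type*} [Field F] [Field F']
variable (ι : F →+* LaurentSeries L) (ι' : F' →+* LaurentSeries L) (ψ : F →+* F')
variable {T : LaurentSeries L →+* LaurentSeries L} {TA : LaurentSeries A →+* LaurentSeries A}
  {Tk : LaurentSeries (ResidueField A) →+* LaurentSeries (ResidueField A)}
  (hT : CoeffCompat A T TA Tk)

include hT in
/-- membership part of the raw row -/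
theorem gauss_row_mem (hcomp : ∀ y, ι' (ψ y) = T (ι y)) {y : F} (hy : y ∈ gaussSubring A ι) :
    ψ y ∈ gaussSubring A ι' := by
  obtain ⟨g, h, hh, e⟩ := hy
  refine ⟨TA g, TA h, red_compat_ne_zero A hT hh, ?_⟩
  rw [hcomp, hT.incl, hT.incl, ← map_mul, e]

include hT in
/-- reduction part of the raw row, on the Gauss subrings -/
theorem gauss_row_red (hcomp : ∀ y, ι' (ψ y) = T (ι y)) (y : gaussSubring A ι) :
    gaussRed A ι' ⟨ψ y, gauss_row_mem A ι ι' ψ hT hcomp y.2⟩ = Tk (gaussRed A ι y) := by
  obtain ⟨g, h, hh, e⟩ := y.2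
  have e' : ι' (ψ (y : F)) * incl A (TA h) = incl A (TA g) := by
    rw [hcomp, hT.incl, hT.incl, ← map_mul, e]
  rw [gaussRed_eq A ι y hh e,
    gaussRed_eq A ι' ⟨ψ y, gauss_row_mem A ι ι' ψ hT hcomp y.2⟩ (red_compat_ne_zero A hT hh) e',
    hT.red, hT.red, map_div₀]

variable (hι : ∀ x : F, x ≠ 0 → HasGaussRatio A ι x)
  (hι' : ∀ x : F', x ≠ 0 → HasGaussRatio A ι' x)

include hT in
/-- **the abstract raw row**: `ι' ∘ ψ = T ∘ ι` -/
theorem gauss_row (hcomp : ∀ y, ι' (ψ y) = T (ι y)) {y : F} (hy : y ∈ (gaussPlace A ι hι).O) :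
    ψ y ∈ (gaussPlace A ι' hι').O ∧
      (((gaussPlace A ι' hι').redF (ψ y) : gaussResidue A ι' hι') :
        LaurentSeries (ResidueField A)) =
        Tk (((gaussPlace A ι hι).redF y : gaussResidue A ι hι) :
          LaurentSeries (ResidueField A)) := by
  have hy' : y ∈ gaussSubring A ι := hy
  have h1 : ψ y ∈ gaussSubring A ι' := gauss_row_mem A ι ι' ψ hT hcomp hy'
  refine ⟨h1, ?_⟩
  rw [gaussPlace_redF_coe A ι hι hy', gaussPlace_redF_coe A ι' hι' h1]
  exact gauss_row_red A ι ι' ψ hT hcomp ⟨y, hy'⟩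

end Abstract

section Tower

open Fermat.Agent.S18lib Fermat.Agent.S36lib.Desc Fermat.Agent.S36lib.Desc2
open Fermat.Agent.LSb.Unit (VqR)

local notation "Qb" => AlgebraicClosure ℚ

variable {M q : ℕ} [NeZero M] [NeZero q] [hq : Fact q.Prime] {A : ValuationSubring Qb}

local notation "kA" => IsLocalRing.ResidueField A
local notation "kW" => IsLocalRing.ResidueField (Wfix A)

/-- the field `hV` of `TowerRaw` for `Ω = kA((t))`, `incl` the coercion, `VΩ = qExpand kA q` -/
theorem coe_VqR (hA : A.LiesOverPrime q) (z : FRes A M) :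
    qExpand kA q (z : LaurentSeries kA) = ((VqR (M := M) hA z : FRes A M) : LaurentSeries kA) :=
  rfl

/-- the constants: `kW → FRes A M ⊆ kA((t))` -/
theorem coe_algebraMap_kW (a : Wfix A) :
    ((algebraMap kW (FRes A M) (residue (Wfix A) a) : FRes A M) : LaurentSeries kA) =
      HahnSeries.C (residue A ⟨((a : Kfix A) : Qb), a.2⟩) := by
  show ((algebraMap kA (FRes A M) (resMap A (residue (Wfix A) a)) : FRes A M) :
    LaurentSeries kA) = _
  rw [resMap_residue]
  have h1 : ((algebraMap kA (FRes A M) (residue A (inclWA A a)) : FRes A M) : LaurentSeries kA) =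
      algebraMap kA (LaurentSeries kA) (residue A (inclWA A a)) := rfl
  rw [h1, HahnSeries.algebraMap_apply']
  have h2 : algebraMap kA (PowerSeries kA) (residue A (inclWA A a)) =
      PowerSeries.C (residue A (inclWA A a)) := by simp
  rw [h2, HahnSeries.ofPowerSeries_C]
  rfl

end Tower

end Fermat.Agent.S45lib.KMval
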