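/-
S45lib / KMval / GaussArch  (helper8)  --  Project J, Tower/Places, obligation (iv) "arch"

**The Gauss valuation ring of a subfield of `L((t))` is of rank one when `A` is.**

* `exists_pow_mul_mem_of_rankOne` : the valuation form of `Frame.RankOneDvd`;
* `isArch_gaussVS A ι hι (hA : Frame.RankOneDvd A) : IsArch (gaussVS A ι hι)` (abstract `L, A, F`);
* `isArch_gaussVS_of_liesOverPrime` : `A ∣ q` a valuation ring of `ℚ̄`;
* `isArch_gaussPlace_of_liesOverPrime` : the same for `(gaussPlace A ι hι).O` (the field `arch` of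
  `KMval.RawEstimates` / `MThick.TowerRaw`);
* `isArch_cuspFix` : for the cusp homomorphisms of the tower (helper2's `Tower/CuspGauss`).
-/
import Mathlib
import Fermat.Agent.S45lib.Tower.CuspGauss
import Fermat.Agent.S45lib.Gauss.Place
import Fermat.Agent.S36lib.Norm.ApproxFamily
import Fermat.Agent.LSb.Frame.Approx
import Fermat.Agent.S18lib.Asm.RankOne

set_option autoImplicit false
set_option linter.unusedSectionVars false
set_option linter.unusedVariables false

noncomputable section

namespace Fermat.Agent.S45lib.KMval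

open HahnSeries IsLocalRing
open Fermat.Agent.S36lib.Norm (IsArch)
open Fermat.Agent.LSb
open Fermat.Agent.S45lib.Gauss

section Abstract

variable {L : Type*} [Field L] (A : ValuationSubring L)
variable {F : Type*} [Field F] (ι : F →+* LaurentSeries L)
variable (hι : ∀ x : F, x ≠ 0 → HasGaussRatio A ι x)

/-- the valuation form of `RankOneDvd`: powers of an element of the maximal ideal kill every
denominator -/
theorem exists_pow_mul_mem_of_rankOne (hA : Frame.RankOneDvd A) {c : L} (hc : A.valuation c < 1)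
    (d : L) : ∃ n : ℕ, c ^ n * d ∈ A := by
  rcases eq_or_ne c 0 with rfl | hc0
  · exact ⟨1, by rw [pow_one, zero_mul]; exact A.zero_mem⟩
  rcases A.mem_or_inv_mem d with hd | hd
  · exact ⟨0, by rw [pow_zero, one_mul]; exact hd⟩
  rcases eq_or_ne d 0 with rfl | hd0
  · exact ⟨0, by rw [mul_zero]; exact A.zero_mem⟩
  have hcA : c ∈ A := (A.valuation_le_one_iff c).1 hc.le
  have hcm : (⟨c, hcA⟩ : A) ∈ IsLocalRing.maximalIdeal A :=
    (A.valuation_lt_one_iff ⟨c, hcA⟩).2 hc
  have hd1 : (⟨d⁻¹, hd⟩ : A) ≠ 0 := fun h => inv_ne_zero hd0 (congrArg Subtype.val h)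
  obtain ⟨n, hn⟩ := hA ⟨c, hcA⟩ hcm ⟨d⁻¹, hd⟩ hd1
  refine ⟨n, ?_⟩
  rcases A.mem_or_inv_mem (c ^ n * d) with h | h
  · exact h
  · exfalso
    apply hn
    refine ⟨⟨(c ^ n * d)⁻¹, h⟩, Subtype.ext ?_⟩
    have hcn : c ^ n ≠ 0 := pow_ne_zero n hc0
    show d⁻¹ = (((⟨c, hcA⟩ : A) ^ n : A) : L) * (c ^ n * d)⁻¹
    have hpow : (((⟨c, hcA⟩ : A) ^ n : A) : L) = c ^ n := by
      rw [← ValuationSubring.subtype_apply, map_pow]
      rfl
    rw [hpow, mul_inv, ← mul_assoc, mul_inv_cancel₀ hcn, one_mul]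

/-- **the Gauss valuation ring is of rank one** when the valuation ring of the coefficients is -/
theorem isArch_gaussVS (hA : Frame.RankOneDvd A) : IsArch (gaussVS A ι hι) := by
  intro z hz x
  rcases eq_or_ne z 0 with rfl | hz0
  · exact ⟨1, by rw [pow_one, zero_mul, map_zero]; exact zero_le_one⟩
  rcases eq_or_ne x 0 with rfl | hx0
  · exact ⟨0, by rw [mul_zero, map_zero]; exact zero_le_one⟩
  obtain ⟨c, hc, g, h, hg, hh, e⟩ := hι z hz0
  obtain ⟨d, hd, g', h', hg', hh', e'⟩ := hι x hx0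
  have hcv : A.valuation c < 1 := (gaussVS_val_lt_one_iff A ι hι hg hh e).1 hz
  obtain ⟨n, hn⟩ := exists_pow_mul_mem_of_rankOne A hA hcv d
  refine ⟨n, ?_⟩
  rw [ValuationSubring.valuation_le_one_iff, mem_gaussVS_iff]
  refine (mem_gaussSubring_iff_of_ratio A ι (c := c ^ n * d) (g := g ^ n * g') (h := h ^ n * h')
    ?_ ?_ ?_).2 hn
  · rw [map_mul, map_pow]
    exact mul_ne_zero (pow_ne_zero n hg) hg'
  · rw [map_mul, map_pow]
    exact mul_ne_zero (pow_ne_zero n hh) hh'
  · rw [map_mul, map_pow, map_mul, map_pow, map_mul, map_pow, map_mul, map_pow]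
    calc ι z ^ n * ι x * (incl A h ^ n * incl A h')
        = (ι z * incl A h) ^ n * (ι x * incl A h') := by ring
      _ = _ := by rw [e, e']; ring

end Abstract

section Qbar

local notation "Qb" => AlgebraicClosure ℚ

variable {q : ℕ} [hq : Fact q.Prime] (A : ValuationSubring Qb) (hA : A.LiesOverPrime q)
variable {F : Type*} [Field F] (ι : F →+* LaurentSeries Qb)
variable (hι : ∀ x : F, x ≠ 0 → HasGaussRatio A ι x)

include hA in
/-- `A ∣ q` a valuation ring of `ℚ̄`: the Gauss valuation ring is of rank one -/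
theorem isArch_gaussVS_of_liesOverPrime : IsArch (gaussVS A ι hι) :=
  isArch_gaussVS A ι hι (Fermat.Agent.S18lib.rankOne_of_liesOverPrime A hA)

include hA in
/-- the field `arch` of `RawEstimates` / `TowerRaw` for a Gauss place -/
theorem isArch_gaussPlace_of_liesOverPrime : IsArch (gaussPlace A ι hι).O :=
  isArch_gaussVS_of_liesOverPrime A hA ι hι

end Qbar

section Tower

open Fermat.Agent.S45lib.Tower

local notation "Qb" => AlgebraicClosure ℚ

variable {M q : ℕ} [NeZero M] [NeZero q] [hqF : Fact q.Prime]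

/-- the Gauss place of the component `(a, b)` of level `M q^(a+b)` is of rank one -/
theorem isArch_cuspFix (hqM : ¬ q ∣ M) (A : ValuationSubring Qb) (hA : A.LiesOverPrime q)
    {a b : ℕ} {ζ : Qbˣ} (hζ : IsPrimitiveRoot ζ (q ^ b))
    {φ : FT M q (a + b) →+* LaurentSeries Qb} (h : IsCuspHom M q a b ζ φ) :
    IsArch (gaussPlace A (cuspFix (A.inertiaSubgroupIn ℚ) (a + b) φ)
      (hasGaussRatio_cuspFix hqM A hA hζ h)).O :=
  isArch_gaussPlace_of_liesOverPrime A hA _ _

end Tower

end Fermat.Agent.S45lib.KMval
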