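/-
S45lib / KMval / ArchAlg  (helper8, Project J)

**Rank one is inherited by algebraic extensions**: if `F / F'` is algebraic, `O'` is a rank one
(`IsArch`) valuation subring of `F'` and `Q` is a valuation subring of `F` containing (the image
of) `O'`, then `Q` is of rank one (`isArch_of_isAlgebraic`).

Key lemma (`exists_pow_valuation_eq`): the value group of `Q` is torsion modulo the values of
`F'`: for `x ≠ 0` there are `n ≠ 0` and `c ∈ F'ˣ` with `v x ^ n = v c` (two terms of an algebraic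
relation of `x` have the same valuation).
-/
import Mathlib
import Fermat.Agent.S36lib.Norm.ApproxFamily

set_option autoImplicit false

noncomputable section

namespace Fermat.Agent.S45lib.KMval

open Fermat.Agent.S36lib.Norm Polynomial

variable {F' F : Type*} [Field F'] [Field F] [Algebra F' F]

/-- if a finite sum of nonzero terms vanishes, two distinct terms have the same valuation -/
theorem exists_ne_val_eq_of_sum_eq_zero {Γ : Type*} [LinearOrderedCommGroupWithZero Γ]
    (v : Valuation F Γ) {κ : Type*} [DecidableEq κ] (s : Finset κ) (T : κ → F) (hs : s.Nonempty)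
    (hT : ∀ i ∈ s, T i ≠ 0) (hsum : ∑ i ∈ s, T i = 0) :
    ∃ i ∈ s, ∃ j ∈ s, i ≠ j ∧ v (T i) = v (T j) := by
  obtain ⟨i₀, hi₀, hmax⟩ := Finset.exists_max_image s (fun i => v (T i)) hs
  by_contra hcon
  push Not at hcon
  have hlt : ∀ i ∈ s \ {i₀}, v (T i) < v (T i₀) := by
    intro i hi
    rw [Finset.mem_sdiff, Finset.mem_singleton] at hi
    exact lt_of_le_of_ne (hmax i hi.1) (hcon i hi.1 i₀ hi₀ hi.2)
  have h1 := Valuation.map_sum_eq_of_lt v hi₀ hlt
  rw [hsum, map_zero] at h1
  exact (Valuation.ne_zero_iff v).2 (hT i₀ hi₀) h1.symm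

/-- **the value group is torsion modulo the base** -/
theorem exists_pow_valuation_eq [Algebra.IsAlgebraic F' F] (Q : ValuationSubring F) {x : F}
    (hx : x ≠ 0) :
    ∃ (n : ℕ) (c : F'), n ≠ 0 ∧ c ≠ 0 ∧ Q.valuation x ^ n = Q.valuation (algebraMap F' F c) := by
  classical
  obtain ⟨p, hp0, hp⟩ := Algebra.IsAlgebraic.isAlgebraic (R := F') x
  rw [Polynomial.aeval_def, Polynomial.eval₂_eq_sum, Polynomial.sum_def] at hp
  have hs : p.support.Nonempty := Polynomial.support_nonempty.2 hp0
  have hT : ∀ i ∈ p.support, algebraMap F' F (p.coeff i) * x ^ i ≠ 0 := fun i hi =>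
    mul_ne_zero ((_root_.map_ne_zero _).2 (Polynomial.mem_support_iff.1 hi)) (pow_ne_zero _ hx)
  obtain ⟨i, hi, j, hj, hij, hv⟩ :=
    exists_ne_val_eq_of_sum_eq_zero Q.valuation p.support _ hs hT hp
  have hvx : 0 < Q.valuation x := zero_lt_iff.2 ((Valuation.ne_zero_iff _).2 hx)
  -- symmetric statement
  have key : ∀ i j : ℕ, i < j → p.coeff i ≠ 0 → p.coeff j ≠ 0 →
      Q.valuation (algebraMap F' F (p.coeff i) * x ^ i) =
        Q.valuation (algebraMap F' F (p.coeff j) * x ^ j) →
      ∃ (n : ℕ) (c : F'), n ≠ 0 ∧ c ≠ 0 ∧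
        Q.valuation x ^ n = Q.valuation (algebraMap F' F c) := by
    intro i j hlt hci hcj hv
    refine ⟨j - i, p.coeff i / p.coeff j, by omega, div_ne_zero hci hcj, ?_⟩
    have hcj' : 0 < Q.valuation (algebraMap F' F (p.coeff j)) :=
      zero_lt_iff.2 ((Valuation.ne_zero_iff _).2 ((_root_.map_ne_zero _).2 hcj))
    have hxi : 0 < Q.valuation x ^ i := pow_pos hvx _
    rw [map_mul, map_mul, map_pow, map_pow] at hv
    rw [map_div₀, map_div₀, eq_div_iff (ne_of_gt hcj')]
    have e1 : Q.valuation x ^ j = Q.valuation x ^ (j - i) * Q.valuation x ^ i := by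
      rw [← pow_add]
      congr 1
      omega
    rw [e1] at hv
    have h2 : Q.valuation x ^ (j - i) * Q.valuation (algebraMap F' F (p.coeff j)) *
        Q.valuation x ^ i = Q.valuation (algebraMap F' F (p.coeff i)) * Q.valuation x ^ i := by
      rw [mul_right_comm, hv, mul_comm]
    exact mul_right_cancel₀ (ne_of_gt hxi) h2
  rcases lt_or_gt_of_ne hij with h | h
  · exact key i j h (Polynomial.mem_support_iff.1 hi) (Polynomial.mem_support_iff.1 hj) hv
  · exact key j i h (Polynomial.mem_support_iff.1 hj) (Polynomial.mem_support_iff.1 hi) hv.symm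

/-- **rank one is inherited by algebraic extensions.** -/
theorem isArch_of_isAlgebraic [Algebra.IsAlgebraic F' F] {O' : ValuationSubring F'}
    (hO' : IsArch O') (Q : ValuationSubring F)
    (hmem : ∀ y : F', y ∈ O' → algebraMap F' F y ∈ Q) : IsArch Q := by
  intro z hz x
  rcases eq_or_ne x 0 with rfl | hx
  · exact ⟨0, by simp⟩
  rcases eq_or_ne z 0 with rfl | hz0
  · exact ⟨1, by simp⟩
  obtain ⟨s, c, hs, hc0, hc⟩ := exists_pow_valuation_eq (F' := F') Q hz0
  obtain ⟨r, d, hr, hd0, hd⟩ := exists_pow_valuation_eq (F' := F') Q hx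
  -- `c` is a non-unit of `O'`
  have hcQ : Q.valuation (algebraMap F' F c) < 1 := by
    rw [← hc]
    exact pow_lt_one₀ zero_le hz hs
  have hcO : O'.valuation c < 1 := by
    by_contra hcon
    have h1 : O'.valuation c⁻¹ ≤ 1 := by
      rw [map_inv₀]
      exact inv_le_one_of_one_le₀ (not_lt.1 hcon)
    have h2 := (Q.valuation_le_one_iff _).2 (hmem _ ((O'.valuation_le_one_iff _).1 h1))
    rw [map_inv₀, map_inv₀] at h2
    have h3 : 0 < Q.valuation (algebraMap F' F c) :=
      zero_lt_iff.2 ((Valuation.ne_zero_iff _).2 ((_root_.map_ne_zero _).2 hc0))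
    exact absurd hcQ (not_lt.2 ((inv_le_one₀ h3).1 h2))
  obtain ⟨n, hn⟩ := hO' c hcO d
  have h4 := (Q.valuation_le_one_iff _).2 (hmem _ ((O'.valuation_le_one_iff _).1 hn))
  rw [map_mul, map_pow, map_mul, map_pow, ← hc, ← hd, ← pow_mul] at h4
  -- `(v z ^ (s n) * v x) ^ r ≤ 1`
  refine ⟨s * n, ?_⟩
  by_contra hcon
  have h5 : 1 < Q.valuation (z ^ (s * n) * x) := not_le.1 hcon
  have h6 := one_lt_pow₀ h5 hr
  rw [map_mul, map_pow, mul_pow, ← pow_mul] at h6
  have hr1 : s * n * r = s * n + s * n * (r - 1) := by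
    obtain ⟨r', rfl⟩ : ∃ r', r = r' + 1 := ⟨r - 1, by omega⟩
    simp only [Nat.add_sub_cancel]
    ring
  have h7 : Q.valuation z ^ (s * n * r) * Q.valuation x ^ r ≤ 1 := by
    rw [hr1, pow_add, mul_right_comm]
    exact mul_le_one' h4 (pow_le_one₀ zero_le hz.le)
  exact absurd h6 (not_lt.2 h7)

end Fermat.Agent.S45lib.KMval
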