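/-
S45lib / KMval / FundIneq  (helper8, Project J)

**The fundamental inequality `∑ eᵢ fᵢ ≤ [F : F']` in WITNESS form** (valuation-only core: no
residue fields, no exact ramification data).

`F / F'` a finite extension of fields, `O'` a valuation subring of `F'` whose maximal ideal is
generated by `π`; finitely many pairwise incomparable rank one (`IsArch`) valuation subrings `O i`
of `F` over `O'` with `π ∈ 𝔪ᵢ` (`FIBase`).  WITNESSES (`FIWitness`): for every `i`

* `ϖ i ≠ 0` with `vᵢ (ϖ i) < 1` and `vᵢ π ≤ vᵢ (ϖ i) ^ e i`   (so the ramification index is `≥ e i`),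
* a finite family `ω i : J i → O i` which is independent modulo `𝔪ᵢ` over `O'`
  (so the residue degree is `≥ card (J i)`).

Then `∑ i, e i * card (J i) ≤ finrank F' F`  (`fundIneq_le`).

Proof = the frame of `S36lib/Norm/RamNormRed` (`B i a * t i ^ m`, `m < e i`, with `t i`, `B i a`
from the approximation theorem) — its linear independence only uses the inequalities above.
-/
import Mathlib
import Fermat.Agent.S36lib.Norm.ApproxFamily

set_option autoImplicit false
set_option linter.unusedSectionVars false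

noncomputable section

namespace Fermat.Agent.S45lib.KMval

open Fermat.Agent.S36lib.Norm

section Core

variable {F' F : Type*} [Field F'] [Field F] [Algebra F' F]
variable {ι : Type*} [Fintype ι] [DecidableEq ι]

/-- the base of the fundamental inequality: `(O', π)` and finitely many pairwise incomparable rank
one valuation subrings of `F` over it -/
structure FIBase (O' : ValuationSubring F') (π : F') (O : ι → ValuationSubring F) : Prop where
  pi_ne : π ≠ 0
  pi_gen : ∀ x : F', O'.valuation x < 1 → O'.valuation x ≤ O'.valuation π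
  mem : ∀ i (y : F'), y ∈ O' → algebraMap F' F y ∈ O i
  pi_lt : ∀ i, (O i).valuation (algebraMap F' F π) < 1
  incomp : ∀ i j, i ≠ j → ¬ O i ≤ O j
  arch : ∀ i, IsArch (O i)

/-- the witnesses: lower bounds `e i` for the ramification and `card (J i)` for the residue
degree -/
structure FIWitness (O' : ValuationSubring F') (π : F') (O : ι → ValuationSubring F)
    (ϖ : ι → F) (e : ι → ℕ) {J : ι → Type*} [∀ i, Fintype (J i)] (ω : ∀ i, J i → F) : Prop where
  unif_ne : ∀ i, ϖ i ≠ 0
  unif_lt : ∀ i, (O i).valuation (ϖ i) < 1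
  ram_le : ∀ i, (O i).valuation (algebraMap F' F π) ≤ (O i).valuation (ϖ i) ^ e i
  ω_mem : ∀ i a, ω i a ∈ O i
  ω_indep : ∀ i (c : J i → F'), (∀ a, c a ∈ O') →
    (O i).valuation (∑ a, c a • ω i a) < 1 → ∀ a, O'.valuation (c a) < 1

variable {O' : ValuationSubring F'} {π : F'} {O : ι → ValuationSubring F}

namespace FIBase

variable (D : FIBase O' π O)
include D

theorem val_le_one (i : ι) {y : F'} (hy : O'.valuation y ≤ 1) :
    (O i).valuation (algebraMap F' F y) ≤ 1 :=
  ((O i).valuation_le_one_iff _).2 (D.mem i y ((O'.valuation_le_one_iff y).1 hy))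

theorem val_pi_pos (i : ι) : 0 < (O i).valuation (algebraMap F' F π) :=
  zero_lt_iff.2 ((Valuation.ne_zero_iff _).2 ((map_ne_zero _).2 D.pi_ne))

/-- `𝔪' = π O'` seen at `O i` -/
theorem val_le_pi (i : ι) {d : F'} (hd : O'.valuation d < 1) :
    (O i).valuation (algebraMap F' F d) ≤ (O i).valuation (algebraMap F' F π) := by
  have hπ : 0 < O'.valuation π := zero_lt_iff.2 ((Valuation.ne_zero_iff _).2 D.pi_ne)
  have h1 : O'.valuation (d / π) ≤ 1 := by
    rw [map_div₀, div_le_one₀ hπ]
    exact D.pi_gen d hd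
  have h2 := D.val_le_one i h1
  rwa [map_div₀, map_div₀, div_le_one₀ (D.val_pi_pos i)] at h2

/-- `𝔪ᵢ ∩ F' = 𝔪'` -/
theorem val_lt_one (i : ι) {d : F'} (hd : O'.valuation d < 1) :
    (O i).valuation (algebraMap F' F d) < 1 :=
  (D.val_le_pi i hd).trans_lt (D.pi_lt i)

end FIBase

variable {ϖ : ι → F} {e : ι → ℕ} {J : ι → Type*} [∀ i, Fintype (J i)] {ω : ∀ i, J i → F}

theorem FIWitness.unif_pos (W : FIWitness O' π O ϖ e ω) (i : ι) :
    0 < (O i).valuation (ϖ i) :=
  zero_lt_iff.2 ((Valuation.ne_zero_iff _).2 (W.unif_ne i))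

/-- A **frame**: `t i` has the valuation of `ϖ i` at `O i` and is a unit at the other places;
`B i a` is congruent to `ω i a` at `O i` and divisible by `π` at the other places. -/
structure IsFIFrame (π : F') (O : ι → ValuationSubring F) (ϖ : ι → F) (ω : ∀ i, J i → F)
    (t : ι → F) (B : ∀ i, J i → F) : Prop where
  t_self : ∀ i, (O i).valuation (t i) = (O i).valuation (ϖ i)
  t_other : ∀ i j, j ≠ i → (O j).valuation (t i) = 1
  B_self : ∀ i a, (O i).valuation (B i a - ω i a) < 1
  B_other : ∀ i a j, j ≠ i →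
    (O j).valuation (B i a) < (O j).valuation (algebraMap F' F π)

theorem exists_isFIFrame (D : FIBase O' π O) (W : FIWitness O' π O ϖ e ω) :
    ∃ (t : ι → F) (B : ∀ i, J i → F), IsFIFrame π O ϖ ω t B := by
  have ht : ∀ i, ∃ x : F, (O i).valuation x = (O i).valuation (ϖ i) ∧
      ∀ j, j ≠ i → (O j).valuation x = 1 := by
    intro i
    have : Nonempty ι := ⟨i⟩
    obtain ⟨x, -, hx⟩ := exists_valuation_eq O D.incomp D.arch
      (fun j => if j = i then ϖ i else 1) (fun j => by
        by_cases h : j = i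
        · rw [if_pos h]; exact W.unif_ne i
        · rw [if_neg h]; exact one_ne_zero)
    refine ⟨x, ?_, fun j hj => ?_⟩
    · have := hx i
      rwa [if_pos rfl] at this
    · have := hx j
      rwa [if_neg hj, map_one] at this
  have hB : ∀ i (a : J i), ∃ x : F, (O i).valuation (x - ω i a) < 1 ∧
      ∀ j, j ≠ i → (O j).valuation x < (O j).valuation (algebraMap F' F π) := by
    intro i a
    obtain ⟨x, hx⟩ := exists_approx O D.incomp D.arch
      (fun j => if j = i then ω i a else 0) (fun j => if j = i then 1 else algebraMap F' F π)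
      (fun j => by
        by_cases h : j = i
        · rw [if_pos h]; exact one_ne_zero
        · rw [if_neg h]; exact (map_ne_zero _).2 D.pi_ne)
    refine ⟨x, ?_, fun j hj => ?_⟩
    · have := hx i
      rwa [if_pos rfl, if_pos rfl, map_one] at this
    · have := hx j
      rwa [if_neg hj, if_neg hj, sub_zero] at this
  choose t ht1 ht2 using ht
  choose B hB1 hB2 using hB
  exact ⟨t, B, ht1, fun i j hj => ht2 i j hj, hB1, hB2⟩

/-- the family `B i a * t i ^ m` (`m < e i`) -/
def fiFrame (e : ι → ℕ) (t : ι → F) (B : ∀ i, J i → F) : (Σ i, J i × Fin (e i)) → F :=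
  fun I => B I.1 I.2.1 * t I.1 ^ (I.2.2 : ℕ)

namespace IsFIFrame

variable {t : ι → F} {B : ∀ i, J i → F}
variable (D : FIBase O' π O) (W : FIWitness O' π O ϖ e ω) (hf : IsFIFrame π O ϖ ω t B)
include D W hf

theorem t_ne_zero (i : ι) : t i ≠ 0 := by
  rw [← Valuation.ne_zero_iff (O i).valuation, hf.t_self i]
  exact ne_of_gt (W.unif_pos i)

theorem val_B_le (i : ι) (a : J i) : (O i).valuation (B i a) ≤ 1 := by
  have h1 : (O i).valuation (ω i a) ≤ 1 := ((O i).valuation_le_one_iff _).2 (W.ω_mem i a)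
  have e1 : B i a = (B i a - ω i a) + ω i a := by ring
  rw [e1]
  exact ((O i).valuation.map_add _ _).trans (max_le (hf.B_self i a).le h1)

/-- term at another place -/
theorem val_term_other {i j : ι} (hij : i ≠ j) (a : J i) (m : ℕ) {d : F'}
    (hd : O'.valuation d ≤ 1) {k : ℕ} (hk : k ≤ e j) :
    (O j).valuation (d • (B i a * t i ^ m)) < (O j).valuation (ϖ j) ^ k := by
  rw [Algebra.smul_def, map_mul, map_mul, map_pow, hf.t_other i j (Ne.symm hij), one_pow, mul_one]
  have h1 : (O j).valuation (B i a) < (O j).valuation (ϖ j) ^ e j :=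
    (hf.B_other i a j (Ne.symm hij)).trans_le (W.ram_le j)
  have h2 : (O j).valuation (ϖ j) ^ e j ≤ (O j).valuation (ϖ j) ^ k :=
    pow_le_pow_of_le_one zero_le (W.unif_lt j).le hk
  exact mul_lt_of_le_one_of_lt (D.val_le_one j hd) (lt_of_lt_of_le h1 h2)

/-- term at the same place, lower exponent, coefficient in `𝔪'` -/
theorem val_term_lt (j : ι) (a : J j) (m : ℕ) {k : ℕ} (hk : k < e j) {d : F'}
    (hd : O'.valuation d < 1) :
    (O j).valuation (d • (B j a * t j ^ m)) < (O j).valuation (ϖ j) ^ k := by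
  rw [Algebra.smul_def, map_mul, map_mul, map_pow, hf.t_self j]
  have h1 := (D.val_le_pi j hd).trans (W.ram_le j)
  have h2 := hf.val_B_le D W j a
  calc (O j).valuation (algebraMap F' F d) * ((O j).valuation (B j a) *
        (O j).valuation (ϖ j) ^ m)
      ≤ (O j).valuation (ϖ j) ^ e j * (1 * (O j).valuation (ϖ j) ^ m) :=
        mul_le_mul' h1 (mul_le_mul' h2 le_rfl)
    _ = (O j).valuation (ϖ j) ^ (e j + m) := by rw [one_mul, pow_add]
    _ < (O j).valuation (ϖ j) ^ k :=
        pow_lt_pow_right_of_lt_one₀ (W.unif_pos j) (W.unif_lt j) (by omega)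

/-- term at the same place, higher exponent -/
theorem val_term_gt (j : ι) (a : J j) {m k : ℕ} (hmk : k < m) {d : F'}
    (hd : O'.valuation d ≤ 1) :
    (O j).valuation (d • (B j a * t j ^ m)) < (O j).valuation (ϖ j) ^ k := by
  rw [Algebra.smul_def, map_mul, map_mul, map_pow, hf.t_self j]
  have h1 := D.val_le_one j hd
  have h2 := hf.val_B_le D W j a
  calc (O j).valuation (algebraMap F' F d) * ((O j).valuation (B j a) *
        (O j).valuation (ϖ j) ^ m)
      ≤ 1 * (1 * (O j).valuation (ϖ j) ^ m) := mul_le_mul' h1 (mul_le_mul' h2 le_rfl)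
    _ = (O j).valuation (ϖ j) ^ m := by rw [one_mul, one_mul]
    _ < (O j).valuation (ϖ j) ^ k :=
        pow_lt_pow_right_of_lt_one₀ (W.unif_pos j) (W.unif_lt j) hmk

/-- **Expansion at the place `j`, level `k`**: if the coefficients of level `< k` at `j` are in
`𝔪'`, the combination is `t j ^ k * (Σ_a d (j,a,k) • B j a)` modulo `t j ^ (k+1)`. -/
theorem val_sum_sub_lt (j : ι) (k : Fin (e j)) (d : (Σ i, J i × Fin (e i)) → F')
    (hd : ∀ I, O'.valuation (d I) ≤ 1)
    (hlow : ∀ (a : J j) (m : Fin (e j)), m < k → O'.valuation (d ⟨j, a, m⟩) < 1) :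
    (O j).valuation ((∑ I, d I • fiFrame e t B I) -
        (∑ a, d ⟨j, a, k⟩ • B j a) * t j ^ (k : ℕ)) < (O j).valuation (ϖ j) ^ (k : ℕ) := by
  have hmain : (∑ a, d ⟨j, a, k⟩ • B j a) * t j ^ (k : ℕ) =
      ∑ a, d ⟨j, a, k⟩ • fiFrame e t B ⟨j, a, k⟩ := by
    rw [Finset.sum_mul]
    refine Finset.sum_congr rfl fun a _ => ?_
    rw [smul_mul_assoc]
    rfl
  have hsplit : (∑ I, d I • fiFrame e t B I) =
      (∑ a, d ⟨j, a, k⟩ • fiFrame e t B ⟨j, a, k⟩) +
        ((∑ a, ∑ m ∈ Finset.univ.erase k, d ⟨j, a, m⟩ • fiFrame e t B ⟨j, a, m⟩) +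
          ∑ i ∈ Finset.univ.erase j, ∑ p : J i × Fin (e i),
            d ⟨i, p⟩ • fiFrame e t B ⟨i, p⟩) := by
    rw [Fintype.sum_sigma, ← Finset.add_sum_erase Finset.univ _ (Finset.mem_univ j),
      Fintype.sum_prod_type, ← add_assoc, ← Finset.sum_add_distrib]
    congr 1
    refine Finset.sum_congr rfl fun a _ => ?_
    exact (Finset.add_sum_erase Finset.univ
      (fun m => d ⟨j, a, m⟩ • fiFrame e t B ⟨j, a, m⟩) (Finset.mem_univ k)).symm
  rw [hmain, hsplit, add_sub_cancel_left]
  have hg : (O j).valuation (ϖ j) ^ (k : ℕ) ≠ 0 := pow_ne_zero _ (ne_of_gt (W.unif_pos j))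
  refine Valuation.map_add_lt _ (Valuation.map_sum_lt _ hg fun a _ =>
    Valuation.map_sum_lt _ hg fun m hm => ?_) (Valuation.map_sum_lt _ hg fun i hi =>
    Valuation.map_sum_lt _ hg fun p _ => ?_)
  · have hmk : m ≠ k := (Finset.mem_erase.1 hm).1
    rcases lt_or_gt_of_ne hmk with h | h
    · exact hf.val_term_lt D W j a m k.2 (hlow a m h)
    · exact hf.val_term_gt D W j a (Fin.lt_def.1 h) (hd _)
  · have hij : i ≠ j := (Finset.mem_erase.1 hi).1
    exact hf.val_term_other D W hij p.1 p.2 (hd _) k.2.le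

/-- **Filtered orthogonality.** -/
theorem coeff_lt_of_val_le (j : ι)
    (d : (Σ i, J i × Fin (e i)) → F') (hd : ∀ I, O'.valuation (d I) ≤ 1) {k : ℕ}
    (hx : (O j).valuation (∑ I, d I • fiFrame e t B I) ≤ (O j).valuation (ϖ j) ^ k) :
    ∀ (m : Fin (e j)), (m : ℕ) < k → ∀ a : J j, O'.valuation (d ⟨j, a, m⟩) < 1 := by
  have hdO : ∀ I, d I ∈ O' := fun I => (O'.valuation_le_one_iff _).1 (hd I)
  have key : ∀ n : ℕ, ∀ m : Fin (e j), (m : ℕ) < n → (m : ℕ) < k →
      ∀ a : J j, O'.valuation (d ⟨j, a, m⟩) < 1 := by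
    intro n
    induction n with
    | zero => intro m hm; exact absurd hm (Nat.not_lt_zero _)
    | succ n ih =>
      intro m hmn hmk a
      have hlow : ∀ (a : J j) (m' : Fin (e j)), m' < m → O'.valuation (d ⟨j, a, m'⟩) < 1 :=
        fun a m' hm' => ih m' (lt_of_lt_of_le (Fin.lt_def.1 hm') (Nat.lt_succ_iff.1 hmn))
          (lt_trans (Fin.lt_def.1 hm') hmk) a
      have h1 := hf.val_sum_sub_lt D W j m d hd hlow
      have hpm : 0 < (O j).valuation (ϖ j) ^ (m : ℕ) := pow_pos (W.unif_pos j) _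
      -- the main term is small
      have h2 : (O j).valuation ((∑ a, d ⟨j, a, m⟩ • B j a) * t j ^ (m : ℕ)) <
          (O j).valuation (ϖ j) ^ (m : ℕ) := by
        have e2 : (∑ a, d ⟨j, a, m⟩ • B j a) * t j ^ (m : ℕ) =
            (∑ I, d I • fiFrame e t B I) -
              ((∑ I, d I • fiFrame e t B I) - (∑ a, d ⟨j, a, m⟩ • B j a) * t j ^ (m : ℕ)) := by
          ring
        rw [e2]
        refine ((O j).valuation.map_sub _ _).trans_lt (max_lt ?_ h1)
        exact lt_of_le_of_lt hx
          (pow_lt_pow_right_of_lt_one₀ (W.unif_pos j) (W.unif_lt j) hmk)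
      rw [map_mul, map_pow, hf.t_self j] at h2
      have h3 : (O j).valuation (∑ a, d ⟨j, a, m⟩ • B j a) < 1 := by
        by_contra hcon
        have h5 : (1 : (O j).ValueGroup) ≤ (O j).valuation (∑ a, d ⟨j, a, m⟩ • B j a) :=
          not_lt.1 hcon
        have := le_mul_of_one_le_left' (a := (O j).valuation (ϖ j) ^ (m : ℕ)) h5
        exact absurd h2 (not_lt.2 this)
      -- replace `B` by `ω`
      have h4 : (O j).valuation (∑ a, d ⟨j, a, m⟩ • ω j a) < 1 := by
        have e3 : ∑ a, d ⟨j, a, m⟩ • ω j a =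
            (∑ a, d ⟨j, a, m⟩ • B j a) - ∑ a, d ⟨j, a, m⟩ • (B j a - ω j a) := by
          rw [← Finset.sum_sub_distrib]
          refine Finset.sum_congr rfl fun a _ => ?_
          rw [smul_sub, sub_sub_cancel]
        rw [e3]
        refine ((O j).valuation.map_sub _ _).trans_lt (max_lt h3 ?_)
        refine Valuation.map_sum_lt _ one_ne_zero fun a _ => ?_
        rw [Algebra.smul_def, map_mul]
        exact mul_lt_of_le_one_of_lt (D.val_le_one j (hd _)) (hf.B_self j a)
      exact W.ω_indep j (fun a => d ⟨j, a, m⟩) (fun a => hdO _) h4 a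
  intro m hm a
  exact key (m + 1) m (Nat.lt_succ_self _) hm a

/-- **Orthogonality**: an integral combination lying in `π R` has all coefficients in `𝔪'`. -/
theorem coeff_lt_one
    (d : (Σ i, J i × Fin (e i)) → F') (hd : ∀ I, O'.valuation (d I) ≤ 1)
    (hx : ∀ j, (O j).valuation (∑ I, d I • fiFrame e t B I) ≤
      (O j).valuation (algebraMap F' F π)) :
    ∀ I, O'.valuation (d I) < 1 := by
  rintro ⟨j, a, m⟩
  exact hf.coeff_lt_of_val_le D W j d hd ((hx j).trans (W.ram_le j)) m m.2 a

/-- a frame is linearly independent over `F'` -/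
theorem linearIndependent : LinearIndependent F' (fiFrame e t B) := by
  rw [Fintype.linearIndependent_iff]
  intro c hsum
  by_contra hne
  push Not at hne
  have hc : c ≠ 0 := by
    obtain ⟨I, hI⟩ := hne
    exact fun h => hI (congrFun h I)
  -- a coefficient of maximal valuation
  obtain ⟨I₁, hI₁⟩ := hne
  have hne' : (Finset.univ : Finset (Σ i, J i × Fin (e i))).Nonempty := ⟨I₁, Finset.mem_univ _⟩
  obtain ⟨I₀, -, hmax⟩ := Finset.exists_max_image Finset.univ (fun I => O'.valuation (c I)) hne'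
  have hv1 : O'.valuation (c I₁) ≠ 0 := (Valuation.ne_zero_iff _).mpr hI₁
  have hv0 : O'.valuation (c I₀) ≠ 0 := by
    intro h0
    have := hmax I₁ (Finset.mem_univ _)
    rw [h0] at this
    exact hv1 (le_antisymm this zero_le)
  have hI₀ : c I₀ ≠ 0 := (Valuation.ne_zero_iff _).mp hv0
  have hd : ∀ I, O'.valuation (c I / c I₀) ≤ 1 := fun I => by
    rw [map_div₀, div_le_one₀ (zero_lt_iff.mpr hv0)]
    exact hmax I (Finset.mem_univ I)
  have hzero : ∑ I, (c I / c I₀) • fiFrame e t B I = 0 := by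
    have : ∑ I, (c I / c I₀) • fiFrame e t B I = (c I₀)⁻¹ • ∑ I, c I • fiFrame e t B I := by
      rw [Finset.smul_sum]
      refine Finset.sum_congr rfl fun I _ => ?_
      rw [smul_smul, div_eq_inv_mul]
    rw [this, hsum, smul_zero]
  have := hf.coeff_lt_one D W (fun I => c I / c I₀) hd (fun j => by
    rw [hzero, map_zero]; exact zero_le) I₀
  rw [div_self hI₀, map_one] at this
  exact lt_irrefl _ this

end IsFIFrame

/-- **THE FUNDAMENTAL INEQUALITY (witness form).** -/
theorem fundIneq_le [FiniteDimensional F' F] (D : FIBase O' π O)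
    (W : FIWitness O' π O ϖ e ω) :
    ∑ i, e i * Fintype.card (J i) ≤ Module.finrank F' F := by
  classical
  obtain ⟨t, B, hf⟩ := exists_isFIFrame D W
  have hli := hf.linearIndependent D W
  have hcard : Fintype.card (Σ i, J i × Fin (e i)) = ∑ i, e i * Fintype.card (J i) := by
    rw [Fintype.card_sigma]
    refine Finset.sum_congr rfl fun i _ => ?_
    rw [Fintype.card_prod, Fintype.card_fin, mul_comm]
  rw [← hcard]
  exact hli.fintype_card_le_finrank

end Core

end Fermat.Agent.S45lib.KMval
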