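/-
S45lib / KMval / FundEq  (helper8, Project J)

**The equality case of the fundamental inequality (witness form).**

With the data of `FundIneq` (`FIBase`, `FIWitness`), assume `[F : F'] ≤ ∑ i, e i * card (J i)`
(so that equality holds) and `e i ≠ 0`.  Then the witnesses are EXACT:

* `FIWitness.nonempty_J` : `J i` is nonempty;
* `FIWitness.unif_gen` : `ϖ i` generates the maximal ideal of `O i`;
* `FIWitness.ram_eq`   : `vᵢ π = vᵢ (ϖ i) ^ e i`;
* `FIWitness.ω_span`   : the `ω i a` span the residue field of `O i` over that of `O'`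
                          (`∀ y ∈ O i, ∃ c : J i → O', vᵢ (y - ∑ a, c a • ω i a) < 1`);
* `FIWitness.eq_of_isArch` : every rank one valuation subring of `F` over `(O', π)` is one of the
                          `O i`.

All four are obtained by feeding an ENLARGED witness to `fundIneq_le`.
-/
import Mathlib
import Fermat.Agent.S45lib.KMval.FundIneq

set_option autoImplicit false
set_option linter.unusedSectionVars false
set_option linter.style.haveILetI false

noncomputable section

namespace Fermat.Agent.S45lib.KMval

open Fermat.Agent.S36lib.Norm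

section Eq

variable {F' F : Type*} [Field F'] [Field F] [Algebra F' F]
variable {ι : Type*} [Fintype ι] [DecidableEq ι]
variable {O' : ValuationSubring F'} {π : F'} {O : ι → ValuationSubring F}
variable {ϖ : ι → F} {e : ι → ℕ} {J : ι → Type*} [∀ i, Fintype (J i)] {ω : ∀ i, J i → F}

/-- replace the ramification witness at one place -/
theorem FIWitness.update (W : FIWitness O' π O ϖ e ω) (i₀ : ι) {y : F} (hy0 : y ≠ 0)
    (hy1 : (O i₀).valuation y < 1) {E : ℕ}
    (hE : (O i₀).valuation (algebraMap F' F π) ≤ (O i₀).valuation y ^ E) :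
    FIWitness O' π O (Function.update ϖ i₀ y) (Function.update e i₀ E) ω where
  unif_ne i := by
    by_cases h : i = i₀
    · subst h; rw [Function.update_self]; exact hy0
    · rw [Function.update_of_ne h]; exact W.unif_ne i
  unif_lt i := by
    by_cases h : i = i₀
    · subst h; rw [Function.update_self]; exact hy1
    · rw [Function.update_of_ne h]; exact W.unif_lt i
  ram_le i := by
    by_cases h : i = i₀
    · subst h; rw [Function.update_self, Function.update_self]; exact hE
    · rw [Function.update_of_ne h, Function.update_of_ne h]; exact W.ram_le i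
  ω_mem := W.ω_mem
  ω_indep := W.ω_indep

theorem sum_update_succ (e : ι → ℕ) (c : ι → ℕ) (i₀ : ι) :
    ∑ i, Function.update e i₀ (e i₀ + 1) i * c i = ∑ i, e i * c i + c i₀ := by
  have h : ∀ i, Function.update e i₀ (e i₀ + 1) i * c i =
      e i * c i + if i = i₀ then c i else 0 := by
    intro i
    by_cases h : i = i₀
    · subst h; rw [Function.update_self, if_pos rfl]; ring
    · rw [Function.update_of_ne h, if_neg h, add_zero]
  rw [Finset.sum_congr rfl fun i _ => h i, Finset.sum_add_distrib, Finset.sum_ite_eq',
    if_pos (Finset.mem_univ _)]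

variable [FiniteDimensional F' F]

/-! ### spanning of the residue field -/

theorem card_plift_prop (p : Prop) [Decidable p] :
    Fintype.card (PLift p) = if p then 1 else 0 := by
  by_cases h : p
  · haveI : Unique (PLift p) := ⟨⟨⟨h⟩⟩, fun _ => rfl⟩
    rw [Fintype.card_unique, if_pos h]
  · haveI : IsEmpty (PLift p) := ⟨fun h' => h h'.down⟩
    rw [Fintype.card_eq_zero, if_neg h]

/-- add one residue witness at the place `i₀` -/
theorem FIWitness.addWitness (D : FIBase O' π O) (W : FIWitness O' π O ϖ e ω) (i₀ : ι) {y : F}
    (hy : y ∈ O i₀)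
    (hny : ∀ c : J i₀ → F', (∀ a, c a ∈ O') → ¬ (O i₀).valuation (y - ∑ a, c a • ω i₀ a) < 1) :
    FIWitness O' π O ϖ e (J := fun j => J j ⊕ PLift (j = i₀))
      (fun j => Sum.elim (ω j) (fun _ => y)) where
  unif_ne := W.unif_ne
  unif_lt := W.unif_lt
  ram_le := W.ram_le
  ω_mem j a := by
    rcases a with a | ⟨⟨h⟩⟩
    · exact W.ω_mem j a
    · subst h
      exact hy
  ω_indep j c hc hsum := by
    rw [Fintype.sum_sum_type] at hsum
    simp only [Sum.elim_inl, Sum.elim_inr] at hsum
    by_cases hj : j = i₀
    · subst hj
      haveI : Unique (PLift (j = j)) := ⟨⟨⟨rfl⟩⟩, fun _ => rfl⟩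
      rw [Fintype.sum_unique (fun x : PLift (j = j) => c (Sum.inr x) • y)] at hsum
      set c₀ := c (Sum.inr default) with hc₀
      have hc₀O : c₀ ∈ O' := hc _
      -- `c₀` is not a unit
      have hc₀lt : O'.valuation c₀ < 1 := by
        by_contra hcon
        have hc₀1 : O'.valuation c₀ = 1 :=
          le_antisymm ((O'.valuation_le_one_iff _).2 hc₀O) (not_lt.1 hcon)
        have hc₀ne : c₀ ≠ 0 := by
          intro h0
          rw [h0, map_zero] at hc₀1
          exact zero_ne_one hc₀1
        have hinv : O'.valuation c₀⁻¹ ≤ 1 := by rw [map_inv₀, hc₀1, inv_one]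
        have hinvF : (O j).valuation (algebraMap F' F c₀⁻¹) ≤ 1 := D.val_le_one j hinv
        refine hny (fun a => -(c₀⁻¹ * c (Sum.inl a))) (fun a => ?_) ?_
        · exact O'.neg_mem _ (O'.mul_mem _ _ ((O'.valuation_le_one_iff _).1 hinv) (hc _))
        · have e1 : y - ∑ a, (-(c₀⁻¹ * c (Sum.inl a))) • ω j a =
              c₀⁻¹ • (∑ a, c (Sum.inl a) • ω j a + c₀ • y) := by
            rw [smul_add, smul_smul, inv_mul_cancel₀ hc₀ne, one_smul, Finset.smul_sum]
            simp only [neg_smul, Finset.sum_neg_distrib, sub_neg_eq_add, smul_smul]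
            exact add_comm _ _
          rw [e1, Algebra.smul_def, map_mul]
          exact mul_lt_of_le_one_of_lt hinvF hsum
      have h1 : (O j).valuation (c₀ • y) < 1 := by
        rw [Algebra.smul_def, map_mul]
        exact mul_lt_of_lt_of_le_one (D.val_lt_one j hc₀lt) (((O j).valuation_le_one_iff _).2 hy)
      have h2 : (O j).valuation (∑ a, c (Sum.inl a) • ω j a) < 1 := by
        have e2 : ∑ a, c (Sum.inl a) • ω j a =
            (∑ a, c (Sum.inl a) • ω j a + c₀ • y) - c₀ • y := by ring
        rw [e2]
        exact ((O j).valuation.map_sub _ _).trans_lt (max_lt hsum h1)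
      have h3 := W.ω_indep j (fun a => c (Sum.inl a)) (fun a => hc _) h2
      intro a
      rcases a with a | a
      · exact h3 a
      · rw [Unique.eq_default a]
        exact hc₀lt
    · haveI : IsEmpty (PLift (j = i₀)) := ⟨fun h' => hj h'.down⟩
      rw [Fintype.sum_empty (fun x : PLift (j = i₀) => c (Sum.inr x) • y), add_zero] at hsum
      have h3 := W.ω_indep j (fun a => c (Sum.inl a)) (fun a => hc _) hsum
      intro a
      rcases a with a | a
      · exact h3 a
      · exact absurd a.down hj

/-- **the residue witnesses span** (equality case). -/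
theorem FIWitness.ω_span (D : FIBase O' π O) (W : FIWitness O' π O ϖ e ω)
    (hdeg : Module.finrank F' F ≤ ∑ i, e i * Fintype.card (J i)) (i : ι) (he : e i ≠ 0)
    {y : F} (hy : y ∈ O i) :
    ∃ c : J i → F', (∀ a, c a ∈ O') ∧ (O i).valuation (y - ∑ a, c a • ω i a) < 1 := by
  by_contra hcon
  push Not at hcon
  have h1 := fundIneq_le D (W.addWitness D i hy fun c hc => not_lt.2 (hcon c hc))
  have h2 : ∑ j, e j * Fintype.card (J j ⊕ PLift (j = i)) =
      ∑ j, e j * Fintype.card (J j) + e i := by
    have h : ∀ j, e j * Fintype.card (J j ⊕ PLift (j = i)) =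
        e j * Fintype.card (J j) + if j = i then e j else 0 := by
      intro j
      rw [Fintype.card_sum, card_plift_prop, mul_add]
      by_cases hj : j = i
      · rw [if_pos hj, if_pos hj, mul_one]
      · rw [if_neg hj, if_neg hj, mul_zero]
    rw [Finset.sum_congr rfl fun j _ => h j, Finset.sum_add_distrib, Finset.sum_ite_eq',
      if_pos (Finset.mem_univ _)]
  rw [h2] at h1
  have : 0 < e i := Nat.pos_of_ne_zero he
  omega

/-- in the equality case there is at least one residue witness at every place -/
theorem FIWitness.nonempty_J (D : FIBase O' π O) (W : FIWitness O' π O ϖ e ω)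
    (hdeg : Module.finrank F' F ≤ ∑ i, e i * Fintype.card (J i)) (i : ι) (he : e i ≠ 0) :
    Nonempty (J i) := by
  by_contra hcon
  haveI : IsEmpty (J i) := not_nonempty_iff.1 hcon
  obtain ⟨c, -, hc⟩ := W.ω_span D hdeg i he (O i).one_mem
  rw [Fintype.sum_empty, sub_zero, map_one] at hc
  exact lt_irrefl _ hc

/-! ### exactness of the ramification witnesses -/

/-- **exclusion**: in the equality case no element of `𝔪ᵢ` is an `(e i + 1)`-th root witness -/
theorem FIWitness.not_le_pow_succ (D : FIBase O' π O) (W : FIWitness O' π O ϖ e ω)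
    (hdeg : Module.finrank F' F ≤ ∑ i, e i * Fintype.card (J i)) (i₀ : ι) (he : e i₀ ≠ 0)
    {y : F} (hy0 : y ≠ 0) (hy1 : (O i₀).valuation y < 1) :
    (O i₀).valuation y ^ (e i₀ + 1) < (O i₀).valuation (algebraMap F' F π) := by
  by_contra hcon
  have h1 := fundIneq_le D (W.update i₀ hy0 hy1 (not_lt.1 hcon))
  rw [sum_update_succ] at h1
  haveI := W.nonempty_J D hdeg i₀ he
  have h2 : 0 < Fintype.card (J i₀) := Fintype.card_pos
  omega

/-- **`ϖ i` generates the maximal ideal** (equality case). -/
theorem FIWitness.unif_gen (D : FIBase O' π O) (W : FIWitness O' π O ϖ e ω)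
    (hdeg : Module.finrank F' F ≤ ∑ i, e i * Fintype.card (J i)) (i : ι)
    (he : e i ≠ 0) (y : F) (hy : (O i).valuation y < 1) :
    (O i).valuation y ≤ (O i).valuation (ϖ i) := by
  by_contra hcon
  have hlt : (O i).valuation (ϖ i) < (O i).valuation y := not_le.1 hcon
  have hypos : 0 < (O i).valuation y := (W.unif_pos i).trans hlt
  have hy0 : y ≠ 0 := (Valuation.ne_zero_iff _).1 (ne_of_gt hypos)
  set g := (O i).valuation (algebraMap F' F π) with hg
  set vy := (O i).valuation y with hvy
  -- `vy ^ (e+1) < g`
  have h1 : vy ^ (e i + 1) < g := W.not_le_pow_succ D hdeg i he hy0 hy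
  -- `g < vy ^ e`
  have h2 : g < vy ^ e i := (W.ram_le i).trans_lt (pow_lt_pow_left₀ hlt zero_le he)
  have hpe : 0 < vy ^ e i := pow_pos hypos _
  -- `z := π / y ^ e`
  have hπ0 : algebraMap F' F π ≠ 0 := (map_ne_zero _).2 D.pi_ne
  have hz0 : algebraMap F' F π / y ^ e i ≠ 0 := div_ne_zero hπ0 (pow_ne_zero _ hy0)
  have hzv : (O i).valuation (algebraMap F' F π / y ^ e i) = g / vy ^ e i := by
    rw [map_div₀, map_pow]
  have hz1 : (O i).valuation (algebraMap F' F π / y ^ e i) < 1 := by
    rw [hzv, div_lt_one₀ hpe]
    exact h2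
  have h3 := W.not_le_pow_succ D hdeg i he hz0 hz1
  rw [hzv, div_pow, div_lt_iff₀ (pow_pos hpe _)] at h3
  -- `g ^ (e+1) < g * vy ^ (e (e+1))` contradicts `vy ^ (e+1) < g`
  have h4 : (vy ^ e i) ^ (e i + 1) ≤ g ^ e i := by
    rw [← pow_mul, mul_comm, pow_mul]
    exact pow_le_pow_left₀ zero_le h1.le _
  have h5 : g * (vy ^ e i) ^ (e i + 1) ≤ g * g ^ e i := mul_le_mul' le_rfl h4
  rw [← pow_succ'] at h5
  exact absurd h3 (not_lt.2 h5)

/-- **exact ramification** (equality case): `vᵢ π = vᵢ (ϖ i) ^ e i`. -/
theorem FIWitness.ram_eq (D : FIBase O' π O) (W : FIWitness O' π O ϖ e ω)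
    (hdeg : Module.finrank F' F ≤ ∑ i, e i * Fintype.card (J i)) (i : ι)
    (he : e i ≠ 0) :
    (O i).valuation (algebraMap F' F π) = (O i).valuation (ϖ i) ^ e i := by
  refine le_antisymm (W.ram_le i) (not_lt.1 fun hcon => ?_)
  have hpe : 0 < (O i).valuation (ϖ i) ^ e i := pow_pos (W.unif_pos i) _
  have hu : (O i).valuation (algebraMap F' F π / ϖ i ^ e i) < 1 := by
    rw [map_div₀, map_pow, div_lt_one₀ hpe]
    exact hcon
  have h1 := W.unif_gen D hdeg i he _ hu
  rw [map_div₀, map_pow, div_le_iff₀ hpe, ← pow_succ'] at h1
  exact absurd (W.not_le_pow_succ D hdeg i he (W.unif_ne i) (W.unif_lt i)) (not_lt.2 h1)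

/-! ### completeness: there is no further place -/

/-- a valuation subring in which a nonzero element has valuation `< 1` is proper -/
theorem ne_top_of_val_lt_one {Q : ValuationSubring F} {x : F} (hx0 : x ≠ 0)
    (hx : Q.valuation x < 1) : Q ≠ ⊤ := by
  intro h
  have h1 : x⁻¹ ∈ Q := by rw [h]; exact ValuationSubring.mem_top _
  have h2 := (Q.valuation_le_one_iff _).2 h1
  rw [map_inv₀] at h2
  have h3 : 0 < Q.valuation x := zero_lt_iff.2 ((Valuation.ne_zero_iff _).2 hx0)
  have := (inv_le_one₀ h3).1 h2
  exact absurd hx (not_lt.2 this)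

/-- **every rank one valuation subring of `F` over `(O', π)` is one of the `O i`** (equality
case). -/
theorem FIWitness.eq_of_isArch (D : FIBase O' π O) (W : FIWitness O' π O ϖ e ω)
    (hdeg : Module.finrank F' F ≤ ∑ i, e i * Fintype.card (J i))
    (Q : ValuationSubring F) (hQ : IsArch Q) (hmem : ∀ y : F', y ∈ O' → algebraMap F' F y ∈ Q)
    (hπ : Q.valuation (algebraMap F' F π) < 1) : ∃ i, Q = O i := by
  by_contra hcon
  push Not at hcon
  have hπ0 : algebraMap F' F π ≠ 0 := (map_ne_zero _).2 D.pi_ne
  have hQtop : Q ≠ ⊤ := ne_top_of_val_lt_one hπ0 hπ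
  have hOtop : ∀ i, O i ≠ ⊤ := fun i => ne_top_of_val_lt_one hπ0 (D.pi_lt i)
  -- the enlarged family
  let Oq : Option ι → ValuationSubring F := fun o => o.elim Q O
  let Jq : Option ι → Type _ := fun o => o.elim PUnit J
  letI instJq : ∀ o, Fintype (Jq o) := fun o =>
    match o with
    | none => (inferInstance : Fintype PUnit)
    | some i => (inferInstance : Fintype (J i))
  let ϖq : Option ι → F := fun o => o.elim (algebraMap F' F π) ϖ
  let eq : Option ι → ℕ := fun o => o.elim 1 e
  let ωq : ∀ o, Jq o → F := fun o =>
    match o with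
    | none => fun _ => 1
    | some i => ω i
  have Dq : FIBase O' π Oq :=
    { pi_ne := D.pi_ne
      pi_gen := D.pi_gen
      mem := fun o y hy => by
        cases o with
        | none => exact hmem y hy
        | some i => exact D.mem i y hy
      pi_lt := fun o => by
        cases o with
        | none => exact hπ
        | some i => exact D.pi_lt i
      incomp := fun o o' hne => by
        cases o with
        | none =>
          cases o' with
          | none => exact absurd rfl hne
          | some i => exact not_le_of_isArch hQ (hOtop i) (hcon i)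
        | some i =>
          cases o' with
          | none => exact not_le_of_isArch (D.arch i) hQtop (hcon i).symm
          | some i' => exact D.incomp i i' (fun h => hne (congrArg some h))
      arch := fun o => by
        cases o with
        | none => exact hQ
        | some i => exact D.arch i }
  have Wq : FIWitness O' π Oq ϖq eq ωq :=
    { unif_ne := fun o => by
        cases o with
        | none => exact hπ0
        | some i => exact W.unif_ne i
      unif_lt := fun o => by
        cases o with
        | none => exact hπ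
        | some i => exact W.unif_lt i
      ram_le := fun o => by
        cases o with
        | none => exact (pow_one _).ge
        | some i => exact W.ram_le i
      ω_mem := fun o a => by
        cases o with
        | none => exact Q.one_mem
        | some i => exact W.ω_mem i a
      ω_indep := fun o c hc hsum => by
        cases o with
        | none =>
          have key : ∀ (c : PUnit → F'), (∀ a, c a ∈ O') →
              Q.valuation (∑ a, c a • (1 : F)) < 1 → ∀ a, O'.valuation (c a) < 1 := by
            intro c hc hsum a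
            obtain ⟨⟩ := a
            rw [Fintype.sum_unique, Algebra.smul_def, mul_one] at hsum
            change Q.valuation (algebraMap F' F (c PUnit.unit)) < 1 at hsum
            by_contra hge
            have h1 : O'.valuation (c PUnit.unit) = 1 :=
              le_antisymm ((O'.valuation_le_one_iff _).2 (hc _)) (not_lt.1 hge)
            have hne : c PUnit.unit ≠ 0 := by
              intro h0
              rw [h0, map_zero] at h1
              exact zero_ne_one h1
            have h2 : (c PUnit.unit)⁻¹ ∈ O' := by
              rw [← O'.valuation_le_one_iff, map_inv₀, h1, inv_one]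
            have h3 := (Q.valuation_le_one_iff _).2 (hmem _ h2)
            rw [map_inv₀, map_inv₀] at h3
            have h4 : 0 < Q.valuation (algebraMap F' F (c PUnit.unit)) :=
              zero_lt_iff.2 ((Valuation.ne_zero_iff _).2 ((map_ne_zero _).2 hne))
            exact absurd hsum (not_lt.2 ((inv_le_one₀ h4).1 h3))
          exact key c hc hsum
        | some i => exact W.ω_indep i c hc hsum }
  have h1 := fundIneq_le Dq Wq
  rw [Fintype.sum_option] at h1
  have h2 : eq none * Fintype.card (Jq none) = 1 := by
    show 1 * Fintype.card PUnit = 1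
    rw [Fintype.card_punit]
  have h3 : ∑ i, eq (some i) * Fintype.card (Jq (some i)) = ∑ i, e i * Fintype.card (J i) := rfl
  rw [h2, h3] at h1
  omega

end Eq

end Fermat.Agent.S45lib.KMval
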