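/-
S45lib / KMval / FundPlace  (helper8, Project J)

**The fundamental inequality in witness form, for `S36lib.Norm.Place` data**, and the passage
from witnesses to an exact `Norm.RamDatum` in the equality case.

`PlaceWitness P' π P ϖ e ω`: a place `P'` of `F'` with `𝔪' = (π)`, finitely many pairwise
incomparable rank one places `P i` of `F` over it, elements `ϖ i ≠ 0` with `vᵢ (ϖ i) < 1` and
`vᵢ π ≤ vᵢ (ϖ i) ^ e i` (`e i ≠ 0`), and `ω i : J i → (P i).O` with `κ'`-linearly independent
reductions.  Then

* `PlaceWitness.sum_le`    : `∑ i, e i * card (J i) ≤ [F : F']`;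
and if `[F : F'] ≤ ∑ i, e i * card (J i)`:
* `PlaceWitness.ramDatum`  : `Norm.RamDatum P' π P ϖ e` (so `ϖ i` IS a uniformizer and `e i` IS
                              the ramification index);
* `PlaceWitness.span_eq_top`, `.finite`, `.finrank_eq` : the reductions of the `ω i a` are a basis
                              of `κ i` over `κ'`, `[κ i : κ'] = card (J i)`;
* `PlaceWitness.hdeg`      : `∑ i, e i * [κ i : κ'] = [F : F']` (the hypothesis of
                              `RamDatum.redF_norm`);
* `PlaceWitness.eq_of_isArch` : the `P i` are ALL the rank one places of `F` over `P'`.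
-/
import Mathlib
import Fermat.Agent.S36lib.Norm.RamNormRed
import Fermat.Agent.S45lib.KMval.FundEq

set_option autoImplicit false
set_option linter.unusedSectionVars false
set_option linter.style.haveILetI false

noncomputable section

namespace Fermat.Agent.S45lib.KMval

open Fermat.Agent.S36lib.Norm

variable {F' F : Type*} [Field F'] [Field F] [Algebra F' F]
variable {κ' : Type*} [Field κ']
variable {ι : Type*} [Fintype ι] [DecidableEq ι]
variable {κ : ι → Type*} [∀ i, Field (κ i)] [∀ i, Algebra κ' (κ i)]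

/-- witnesses for the fundamental inequality, in terms of places with residue maps -/
structure PlaceWitness (P' : Place F' κ') (π : F') (P : ∀ i, Place F (κ i)) (ϖ : ι → F)
    (e : ι → ℕ) {J : ι → Type*} (ω : ∀ i, J i → F) : Prop where
  pi_ne : π ≠ 0
  pi_lt : P'.O.valuation π < 1
  pi_gen : ∀ x : F', P'.O.valuation x < 1 → P'.O.valuation x ≤ P'.O.valuation π
  liesOver : ∀ i, LiesOver P' (P i)
  incomp : ∀ i j, i ≠ j → ¬ (P i).O ≤ (P j).O
  arch : ∀ i, IsArch (P i).O
  e_ne : ∀ i, e i ≠ 0
  unif_ne : ∀ i, ϖ i ≠ 0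
  unif_lt : ∀ i, (P i).O.valuation (ϖ i) < 1
  ram_le : ∀ i, (P i).O.valuation (algebraMap F' F π) ≤ (P i).O.valuation (ϖ i) ^ e i
  ω_mem : ∀ i a, ω i a ∈ (P i).O
  ω_li : ∀ i, LinearIndependent κ' (fun a => (P i).redF (ω i a))

namespace PlaceWitness

variable {P' : Place F' κ'} {π : F'} {P : ∀ i, Place F (κ i)} {ϖ : ι → F} {e : ι → ℕ}
variable {J : ι → Type*} [∀ i, Fintype (J i)] {ω : ∀ i, J i → F}
variable (H : PlaceWitness P' π P ϖ e ω)
include H

theorem fiBase : FIBase P'.O π (fun i => (P i).O) where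
  pi_ne := H.pi_ne
  pi_gen := H.pi_gen
  mem i y hy := (H.liesOver i).mem y hy
  pi_lt i := (H.liesOver i).val_lt_one H.pi_lt
  incomp := H.incomp
  arch := H.arch

/-- reduction of an integral combination of the witnesses -/
theorem redF_sum_smul (i : ι) (c : J i → F') (hc : ∀ a, c a ∈ P'.O) :
    (∑ a, c a • ω i a) ∈ (P i).O ∧
      (P i).redF (∑ a, c a • ω i a) = ∑ a, P'.redF (c a) • (P i).redF (ω i a) := by
  have hmem : ∀ a ∈ (Finset.univ : Finset (J i)), c a • ω i a ∈ (P i).O := fun a _ =>
    (H.liesOver i).smul_mem (hc a) (H.ω_mem i a)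
  refine ⟨(P i).O.sum_mem hmem, ?_⟩
  rw [(P i).redF_sum _ _ hmem]
  refine Finset.sum_congr rfl fun a _ => ?_
  rw [(H.liesOver i).redF_smul (hc a) (H.ω_mem i a)]

theorem fiWitness : FIWitness P'.O π (fun i => (P i).O) ϖ e ω where
  unif_ne := H.unif_ne
  unif_lt := H.unif_lt
  ram_le := H.ram_le
  ω_mem := H.ω_mem
  ω_indep i c hc hsum a := by
    obtain ⟨-, h2⟩ := H.redF_sum_smul i c hc
    rw [(P i).redF_eq_zero_of_lt hsum] at h2
    have h3 := Fintype.linearIndependent_iff.1 (H.ω_li i) _ h2.symm a
    exact (P'.redF_eq_zero_iff (hc a)).1 h3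

variable [FiniteDimensional F' F]

/-- **the fundamental inequality.** -/
theorem sum_le : ∑ i, e i * Fintype.card (J i) ≤ Module.finrank F' F :=
  fundIneq_le H.fiBase H.fiWitness

variable (hdeg : Module.finrank F' F ≤ ∑ i, e i * Fintype.card (J i))
include hdeg

/-- **equality case: the witnesses form an exact ramified family datum.** -/
theorem ramDatum : RamDatum P' π P ϖ e where
  pi_ne := H.pi_ne
  pi_lt := H.pi_lt
  pi_gen := H.pi_gen
  liesOver := H.liesOver
  incomp := H.incomp
  arch := H.arch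
  unif_lt := H.unif_lt
  unif_gen i y hy := H.fiWitness.unif_gen H.fiBase hdeg i (H.e_ne i) y hy
  ram i := H.fiWitness.ram_eq H.fiBase hdeg i (H.e_ne i)

/-- **equality case: the reductions of the witnesses span the residue field.** -/
theorem span_eq_top (i : ι) :
    Submodule.span κ' (Set.range fun a => (P i).redF (ω i a)) = ⊤ := by
  rw [eq_top_iff]
  intro η _
  obtain ⟨y, hy, rfl⟩ := (P i).exists_redF_eq η
  obtain ⟨c, hc, hlt⟩ := H.fiWitness.ω_span H.fiBase hdeg i (H.e_ne i) hy
  obtain ⟨h1, h2⟩ := H.redF_sum_smul i c hc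
  rw [(P i).redF_eq_of_sub_lt h1 hlt, h2]
  exact Submodule.sum_mem _ fun a _ =>
    Submodule.smul_mem _ _ (Submodule.subset_span ⟨a, rfl⟩)

/-- the basis of `κ i` over `κ'` given by the reductions of the witnesses -/
def basis (i : ι) : Module.Basis (J i) κ' (κ i) :=
  Module.Basis.mk (H.ω_li i) (H.span_eq_top hdeg i).ge

theorem finite (i : ι) : Module.Finite κ' (κ i) :=
  Module.Finite.of_basis (H.basis hdeg i)

theorem finrank_eq (i : ι) : Module.finrank κ' (κ i) = Fintype.card (J i) :=
  Module.finrank_eq_card_basis (H.basis hdeg i)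

/-- **equality case: `∑ e f = n`** in the form required by `RamDatum.redF_norm`. -/
theorem hdeg_eq : ∑ i, e i * Module.finrank κ' (κ i) = Module.finrank F' F := by
  rw [Finset.sum_congr rfl fun i _ => by rw [H.finrank_eq hdeg i]]
  exact le_antisymm H.sum_le hdeg

/-- **equality case: completeness.**  Every rank one valuation subring of `F` over `P'` is one
of the `(P i).O`. -/
theorem eq_of_isArch (Q : ValuationSubring F) (hQ : IsArch Q)
    (hmem : ∀ y : F', y ∈ P'.O → algebraMap F' F y ∈ Q)
    (hπ : Q.valuation (algebraMap F' F π) < 1) : ∃ i, Q = (P i).O :=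
  H.fiWitness.eq_of_isArch H.fiBase hdeg Q hQ hmem hπ

end PlaceWitness

end Fermat.Agent.S45lib.KMval
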