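/-
S45lib / KMval / AbsAlong  (helper8)  --  Project J, (P-c): FROM ESTIMATES TO THE EXACT ABSOLUTE DATA
of a level, in the instance-free language of `S36lib/Norm/Along` (shape of `Inst.TowerReq`)

`AbsEstimates ψ ιs P' π P ϖ e` : along `ψ : F' →+* F` (finite), a place `P'` of `F'` with `𝔪' = (π)`,
finitely many DISTINCT rank one places `P i` of `F` restricting to `P'` (rows `Reg.Row ψ (ιs i) P' (P i)`)
with FINITE residue embeddings `ιs i`, candidates `ϖ i ≠ 0`, `vᵢ (ϖ i) < 1` with the ESTIMATE
`vᵢ (ψ π) ≤ vᵢ (ϖ i) ^ e i`, and the count `deg ψ ≤ ∑ e i · deg (ιs i)`.  Then (fundamental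
inequality, equality case; the residue witnesses are lifts of bases, nothing to choose):

* `AbsEstimates.lies`     : `RamOverAlong ψ (ιs i) P' π (P i) (ϖ i) (e i)` — `ϖ i` IS a uniformizer and
                             `e i` IS the ramification index            (`TowerReq.lies`);
* `AbsEstimates.deg_sum`  : `∑ e i · deg (ιs i) = deg ψ`                 (`TowerReq.deg_sum`);
* `AbsEstimates.complete` : every rank one valuation ring of `F` over `P'` along `ψ` is one of the
                             `(P i).O`.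
-/
import Mathlib
import Fermat.Agent.S45lib.KMval.FundPlace
import Fermat.Agent.S45lib.KMval.ArchAlg
import Fermat.Agent.S36lib.Norm.Along
import Fermat.Agent.S36lib.Norm.ApproxFamily
import Fermat.Agent.S36lib.Reg.Rows

set_option autoImplicit false
set_option linter.unusedSectionVars false
set_option linter.unusedVariables false
set_option linter.style.haveILetI false

noncomputable section

namespace Fermat.Agent.S45lib.KMval

open Fermat.Agent.S36lib Fermat.Agent.S36lib.Norm

variable {F' F : Type*} [Field F'] [Field F]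
variable {κ' : Type*} [Field κ']
variable {ι : Type*} [Fintype ι] [DecidableEq ι]
variable {κ : ι → Type*} [∀ i, Field (κ i)]

/-- **rank one along a finite homomorphism**: a valuation ring of `F` containing `ψ (O')`, `O'` of
rank one, `ψ` finite, is of rank one (field `arch` of `AbsEstimates` / `RawEstimates`; the base is
`Norm.isArch_ofGauss _ (Norm.rankOneDvd_Wfix hq hA)`) -/
theorem isArch_of_finiteHom {ψ : F' →+* F} (fin : FiniteHom ψ) {O' : ValuationSubring F'}
    (hO' : IsArch O') (Q : ValuationSubring F) (hmem : ∀ y : F', y ∈ O' → ψ y ∈ Q) :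
    IsArch Q := by
  letI := ψ.toAlgebra
  haveI : FiniteDimensional F' F := fin
  exact isArch_of_isAlgebraic hO' Q hmem

/-- the estimates which force the exact absolute data of a level -/
structure AbsEstimates (ψ : F' →+* F) (ιs : ∀ i, κ' →+* κ i) (P' : Norm.Place F' κ') (π : F')
    (P : ∀ i, Norm.Place F (κ i)) (ϖ : ι → F) (e : ι → ℕ) : Prop where
  base : IsUnif P'.O π
  fin : FiniteHom ψ
  rows : ∀ i, Reg.Row ψ (ιs i) P' (P i)
  arch : ∀ i, IsArch (P i).O
  ne : ∀ i j, i ≠ j → (P i).O ≠ (P j).O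
  e_ne : ∀ i, e i ≠ 0
  unif_ne : ∀ i, ϖ i ≠ 0
  unif_lt : ∀ i, (P i).O.valuation (ϖ i) < 1
  ram_le : ∀ i, (P i).O.valuation (ψ π) ≤ (P i).O.valuation (ϖ i) ^ e i
  fin_ιs : ∀ i, FiniteHom (ιs i)
  deg_le : finrankHom ψ ≤ ∑ i, e i * finrankHom (ιs i)

namespace AbsEstimates

variable {ψ : F' →+* F} {ιs : ∀ i, κ' →+* κ i} {P' : Norm.Place F' κ'} {π : F'}
  {P : ∀ i, Norm.Place F (κ i)} {ϖ : ι → F} {e : ι → ℕ}
variable (E : AbsEstimates ψ ιs P' π P ϖ e)
include E

theorem ne_top (i : ι) : (P i).O ≠ ⊤ := by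
  intro htop
  have h2 : (ϖ i)⁻¹ ∈ (P i).O := by rw [htop]; exact ValuationSubring.mem_top _
  rw [← (P i).O.valuation_le_one_iff, map_inv₀] at h2
  have h3 : 1 < ((P i).O.valuation (ϖ i))⁻¹ :=
    (one_lt_inv₀ (zero_lt_iff.2 ((Valuation.ne_zero_iff _).2 (E.unif_ne i)))).2 (E.unif_lt i)
  exact absurd h2 (not_le.2 h3)

/-- lifts of bases of the residue extensions -/
theorem exists_witness :
    letI := ψ.toAlgebra
    letI : ∀ i, Algebra κ' (κ i) := fun i => (ιs i).toAlgebra
    haveI : ∀ i, Module.Finite κ' (κ i) := E.fin_ιs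
    ∃ ω : ∀ i, Module.Free.ChooseBasisIndex κ' (κ i) → F, PlaceWitness P' π P ϖ e ω := by
  letI := ψ.toAlgebra
  letI : ∀ i, Algebra κ' (κ i) := fun i => (ιs i).toAlgebra
  haveI : ∀ i, Module.Finite κ' (κ i) := E.fin_ιs
  have hlift : ∀ i (a : Module.Free.ChooseBasisIndex κ' (κ i)), ∃ x : F,
      x ∈ (P i).O ∧ (P i).redF x = Module.Free.chooseBasis κ' (κ i) a :=
    fun i a => (P i).exists_redF_eq _
  choose ω hω1 hω2 using hlift
  refine ⟨ω, ?_⟩
  exact
    { pi_ne := E.base.ne_zero
      pi_lt := E.base.lt_one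
      pi_gen := E.base.gen
      liesOver := fun i => ⟨(E.rows i).mem, (E.rows i).red⟩
      incomp := fun i j hij => not_le_of_isArch (E.arch i) (E.ne_top j) (E.ne i j hij)
      arch := E.arch
      e_ne := E.e_ne
      unif_ne := E.unif_ne
      unif_lt := E.unif_lt
      ram_le := E.ram_le
      ω_mem := hω1
      ω_li := fun i => by
        have h : (fun a => (P i).redF (ω i a)) = fun a => Module.Free.chooseBasis κ' (κ i) a :=
          funext fun a => hω2 i a
        rw [h]
        exact (Module.Free.chooseBasis κ' (κ i)).linearIndependent }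

/-- **the exact relative data**: `ϖ i` is a uniformizer and `e i` the ramification index -/
theorem lies (i : ι) : RamOverAlong ψ (ιs i) P' π (P i) (ϖ i) (e i) := by
  letI := ψ.toAlgebra
  letI : ∀ i, Algebra κ' (κ i) := fun i => (ιs i).toAlgebra
  haveI : ∀ i, Module.Finite κ' (κ i) := E.fin_ιs
  haveI : FiniteDimensional F' F := E.fin
  obtain ⟨ω, H⟩ := E.exists_witness
  have hdeg : Module.finrank F' F ≤
      ∑ i, e i * Fintype.card (Module.Free.ChooseBasisIndex κ' (κ i)) := by
    have h := E.deg_le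
    rw [Finset.sum_congr rfl fun i _ => by
      rw [← Module.finrank_eq_card_chooseBasisIndex (R := κ') (M := κ i)]]
    exact h
  have RD := H.ramDatum hdeg
  exact ⟨(E.rows i).mem, (E.rows i).red, E.arch i,
    ⟨E.unif_ne i, E.unif_lt i, RD.unif_gen i⟩, RD.ram i⟩

theorem isUnif (i : ι) : IsUnif (P i).O (ϖ i) := (E.lies i).unif

/-- **`∑ e f = deg ψ`** -/
theorem deg_sum : ∑ i, e i * finrankHom (ιs i) = finrankHom ψ := by
  letI := ψ.toAlgebra
  letI : ∀ i, Algebra κ' (κ i) := fun i => (ιs i).toAlgebra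
  haveI : ∀ i, Module.Finite κ' (κ i) := E.fin_ιs
  haveI : FiniteDimensional F' F := E.fin
  obtain ⟨ω, H⟩ := E.exists_witness
  have hsum := H.sum_le
  rw [Finset.sum_congr rfl fun i _ => by
    rw [← Module.finrank_eq_card_chooseBasisIndex (R := κ') (M := κ i)]] at hsum
  exact le_antisymm hsum E.deg_le

/-- **completeness**: the `P i` are all the rank one places of `F` over `P'` along `ψ` -/
theorem complete (Q : ValuationSubring F) (hQ : IsArch Q)
    (hmem : ∀ y : F', y ∈ P'.O → ψ y ∈ Q) (hπ : Q.valuation (ψ π) < 1) :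
    ∃ i, Q = (P i).O := by
  letI := ψ.toAlgebra
  letI : ∀ i, Algebra κ' (κ i) := fun i => (ιs i).toAlgebra
  haveI : ∀ i, Module.Finite κ' (κ i) := E.fin_ιs
  haveI : FiniteDimensional F' F := E.fin
  obtain ⟨ω, H⟩ := E.exists_witness
  have hdeg : Module.finrank F' F ≤
      ∑ i, e i * Fintype.card (Module.Free.ChooseBasisIndex κ' (κ i)) := by
    have h := E.deg_le
    rw [Finset.sum_congr rfl fun i _ => by
      rw [← Module.finrank_eq_card_chooseBasisIndex (R := κ') (M := κ i)]]
    exact h
  exact H.eq_of_isArch hdeg Q hQ hmem hπ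

end AbsEstimates

end Fermat.Agent.S45lib.KMval
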