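/-
S45lib / KMval / Normalise  (helper8)  --  Project J, (P-c): FROM RAW GAUSS PLACES TO NORMALISED
PLACES WITH EXACT DATA (identification of the residue fields by the fundamental equality)

Setting (abstract; in the tower `Ω = k((t))`, `Q i = Gauss.gaussPlace …` with residue field the
SUBFIELD `S i = Gauss.gaussResidue …` of `Ω`, `κ i = κ' = FRes A M`, `nrm i = (t ↦ t^(q^m)) ∘ incl`,
`ιs i = VqR ^ (2 i - k)`):  along a finite `ψ : F' →+* F`, a place `P'` of `F'` with `𝔪' = (π)`, RAW
places `Q i : Norm.Place F (S i)` (`S i : Subfield Ω`), embeddings `nrm i : κ i →+* Ω` (the expected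
residue field, embedded in `Ω`) and `ιs i : κ' →+* κ i` such that

* `red`  : `red_i (ψ y) = nrm i (ιs i (red' y))`                      (the row of `ψ`, raw),
* `lift` : every `nrm i z` is the reduction of some `x ∈ O_i`          (`nrm i (κ i) ⊆ S i`),
* the estimates `vᵢ (ψ π) ≤ vᵢ (ϖ i) ^ e i`, distinctness, rank one, `ιs i` finite and
  `deg ψ ≤ ∑ e i · deg (ιs i)`.

Then (fundamental equality with witnesses = lifts of `nrm i (basis of κ i / ιs i κ')`):

* `RawEstimates.exists_nrm_eq` : `S i = nrm i (κ i)` — the residue field IS the expected one;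
* `RawEstimates.normPlace i : Norm.Place F (κ i)` : the NORMALISED place, `O = (Q i).O`,
  `nrm i ((normPlace i).redF x) = (Q i).redF x`  (`nrm_redF_normPlace`);
* `RawEstimates.absEstimates : AbsEstimates ψ ιs P' π (normPlace) ϖ e`, hence `lies`, `deg_sum`,
  `complete`, `isUnif` (`KMval/AbsAlong`), `ramFamily`, `towerReq_of_absEstimates`
  (`KMval/RamOfPlace`).
-/
import Mathlib
import Fermat.Agent.S45lib.KMval.AbsAlong

set_option autoImplicit false
set_option linter.unusedSectionVars false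
set_option linter.unusedVariables false
set_option linter.style.haveILetI false

noncomputable section

namespace Fermat.Agent.S45lib.KMval

open Fermat.Agent.S36lib Fermat.Agent.S36lib.Norm

variable {F' F : Type*} [Field F'] [Field F]
variable {κ' : Type*} [Field κ'] {Ω : Type*} [Field Ω]
variable {ι : Type*} [Fintype ι] [DecidableEq ι]
variable {κ : ι → Type*} [∀ i, Field (κ i)]

/-- raw places with the estimates which force the exact data -/
structure RawEstimates (ψ : F' →+* F) (ιs : ∀ i, κ' →+* κ i) (P' : Norm.Place F' κ') (π : F')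
    (S : ι → Subfield Ω) (Q : ∀ i, Norm.Place F (S i)) (nrm : ∀ i, κ i →+* Ω)
    (ϖ : ι → F) (e : ι → ℕ) : Prop where
  base : IsUnif P'.O π
  fin : FiniteHom ψ
  mem : ∀ i (y : F'), y ∈ P'.O → ψ y ∈ (Q i).O
  red : ∀ i (y : F'), y ∈ P'.O → (((Q i).redF (ψ y) : S i) : Ω) = nrm i (ιs i (P'.redF y))
  lift : ∀ i (z : κ i), ∃ x : F, x ∈ (Q i).O ∧ (((Q i).redF x : S i) : Ω) = nrm i z
  arch : ∀ i, IsArch (Q i).O
  ne : ∀ i j, i ≠ j → (Q i).O ≠ (Q j).O
  e_ne : ∀ i, e i ≠ 0
  unif_ne : ∀ i, ϖ i ≠ 0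
  unif_lt : ∀ i, (Q i).O.valuation (ϖ i) < 1
  ram_le : ∀ i, (Q i).O.valuation (ψ π) ≤ (Q i).O.valuation (ϖ i) ^ e i
  fin_ιs : ∀ i, FiniteHom (ιs i)
  deg_le : finrankHom ψ ≤ ∑ i, e i * finrankHom (ιs i)

namespace RawEstimates

variable {ψ : F' →+* F} {ιs : ∀ i, κ' →+* κ i} {P' : Norm.Place F' κ'} {π : F'}
  {S : ι → Subfield Ω} {Q : ∀ i, Norm.Place F (S i)} {nrm : ∀ i, κ i →+* Ω}
  {ϖ : ι → F} {e : ι → ℕ}
variable (E : RawEstimates ψ ιs P' π S Q nrm ϖ e)
include E

theorem nrm_mem (i : ι) (z : κ i) : nrm i z ∈ S i := by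
  obtain ⟨x, -, hx⟩ := E.lift i z
  rw [← hx]
  exact ((Q i).redF x).2

/-- the expected residue field inside the raw one -/
def nrmS (i : ι) : κ i →+* S i := (nrm i).codRestrict (S i) (E.nrm_mem i)

theorem coe_nrmS (i : ι) (z : κ i) : ((E.nrmS i z : S i) : Ω) = nrm i z := rfl

theorem nrmS_injective (i : ι) : Function.Injective (E.nrmS i) := (E.nrmS i).injective

/-- the raw residue embedding `κ' → S i` -/
def resS (i : ι) : κ' →+* S i := (E.nrmS i).comp (ιs i)

theorem ne_top (i : ι) : (Q i).O ≠ ⊤ := by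
  intro htop
  have h2 : (ϖ i)⁻¹ ∈ (Q i).O := by rw [htop]; exact ValuationSubring.mem_top _
  rw [← (Q i).O.valuation_le_one_iff, map_inv₀] at h2
  have h3 : 1 < ((Q i).O.valuation (ϖ i))⁻¹ :=
    (one_lt_inv₀ (zero_lt_iff.2 ((Valuation.ne_zero_iff _).2 (E.unif_ne i)))).2 (E.unif_lt i)
  exact absurd h2 (not_le.2 h3)

/-- the witnesses: lifts of `nrm i (basis of κ i over ιs i κ')` -/
theorem exists_witness :
    letI := ψ.toAlgebra
    letI : ∀ i, Algebra κ' (κ i) := fun i => (ιs i).toAlgebra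
    letI : ∀ i, Algebra κ' (S i) := fun i => (E.resS i).toAlgebra
    haveI : ∀ i, Module.Finite κ' (κ i) := E.fin_ιs
    ∃ ω : ∀ i, Module.Free.ChooseBasisIndex κ' (κ i) → F, PlaceWitness P' π Q ϖ e ω ∧
      ∀ i a, (Q i).redF (ω i a) = E.nrmS i (Module.Free.chooseBasis κ' (κ i) a) := by
  letI := ψ.toAlgebra
  letI : ∀ i, Algebra κ' (κ i) := fun i => (ιs i).toAlgebra
  letI : ∀ i, Algebra κ' (S i) := fun i => (E.resS i).toAlgebra
  haveI : ∀ i, Module.Finite κ' (κ i) := E.fin_ιs
  have hlift : ∀ i (a : Module.Free.ChooseBasisIndex κ' (κ i)), ∃ x : F,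
      x ∈ (Q i).O ∧ (Q i).redF x = E.nrmS i (Module.Free.chooseBasis κ' (κ i) a) := by
    intro i a
    obtain ⟨x, hx, hr⟩ := E.lift i (Module.Free.chooseBasis κ' (κ i) a)
    exact ⟨x, hx, Subtype.ext hr⟩
  choose ω hω1 hω2 using hlift
  refine ⟨ω, ?_, hω2⟩
  exact
    { pi_ne := E.base.ne_zero
      pi_lt := E.base.lt_one
      pi_gen := E.base.gen
      liesOver := fun i => ⟨E.mem i, fun y hy => Subtype.ext (E.red i y hy)⟩
      incomp := fun i j hij => not_le_of_isArch (E.arch i) (E.ne_top j) (E.ne i j hij)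
      arch := E.arch
      e_ne := E.e_ne
      unif_ne := E.unif_ne
      unif_lt := E.unif_lt
      ram_le := E.ram_le
      ω_mem := hω1
      ω_li := fun i => by
        rw [Fintype.linearIndependent_iff]
        intro c hc a
        have h1 : E.nrmS i (∑ a, c a • Module.Free.chooseBasis κ' (κ i) a) = 0 := by
          rw [map_sum, ← hc]
          refine Finset.sum_congr rfl fun a _ => ?_
          rw [hω2 i a, Algebra.smul_def, Algebra.smul_def, map_mul]
          rfl
        have h2 := (map_eq_zero_iff (E.nrmS i) (E.nrmS_injective i)).1 h1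
        exact Fintype.linearIndependent_iff.1
          (Module.Free.chooseBasis κ' (κ i)).linearIndependent c h2 a }

theorem deg_le' :
    letI := ψ.toAlgebra
    letI : ∀ i, Algebra κ' (κ i) := fun i => (ιs i).toAlgebra
    haveI : ∀ i, Module.Finite κ' (κ i) := E.fin_ιs
    Module.finrank F' F ≤
      ∑ i, e i * Fintype.card (Module.Free.ChooseBasisIndex κ' (κ i)) := by
  letI := ψ.toAlgebra
  letI : ∀ i, Algebra κ' (κ i) := fun i => (ιs i).toAlgebra
  haveI : ∀ i, Module.Finite κ' (κ i) := E.fin_ιs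
  have h := E.deg_le
  rw [Finset.sum_congr rfl fun i _ => by
    rw [← Module.finrank_eq_card_chooseBasisIndex (R := κ') (M := κ i)]]
  exact h

/-- **the raw residue field is the expected one**: `S i = nrm i (κ i)` -/
theorem nrmS_surjective (i : ι) : Function.Surjective (E.nrmS i) := by
  letI := ψ.toAlgebra
  letI : ∀ i, Algebra κ' (κ i) := fun i => (ιs i).toAlgebra
  letI : ∀ i, Algebra κ' (S i) := fun i => (E.resS i).toAlgebra
  haveI : ∀ i, Module.Finite κ' (κ i) := E.fin_ιs
  haveI : FiniteDimensional F' F := E.fin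
  obtain ⟨ω, H, hω⟩ := E.exists_witness
  intro s
  have hs : s ∈ Submodule.span κ' (Set.range fun a => (Q i).redF (ω i a)) := by
    rw [H.span_eq_top E.deg_le' i]
    exact Submodule.mem_top
  obtain ⟨c, hc⟩ := (Submodule.mem_span_range_iff_exists_fun κ').1 hs
  refine ⟨∑ a, c a • Module.Free.chooseBasis κ' (κ i) a, ?_⟩
  rw [map_sum, ← hc]
  refine Finset.sum_congr rfl fun a _ => ?_
  rw [hω i a, Algebra.smul_def, Algebra.smul_def, map_mul]
  rfl

theorem exists_nrm_eq (i : ι) (s : S i) : ∃ z : κ i, nrm i z = (s : Ω) := by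
  obtain ⟨z, hz⟩ := E.nrmS_surjective i s
  exact ⟨z, by rw [← hz]; rfl⟩

/-- the identification of the expected residue field with the raw one -/
def nrmEquiv (i : ι) : κ i ≃+* S i :=
  RingEquiv.ofBijective (E.nrmS i) ⟨E.nrmS_injective i, E.nrmS_surjective i⟩

theorem nrmEquiv_apply (i : ι) (z : κ i) : E.nrmEquiv i z = E.nrmS i z := rfl

/-- **the normalised place** -/
def normPlace (i : ι) : Norm.Place F (κ i) where
  O := (Q i).O
  red := ((E.nrmEquiv i).symm : S i →+* κ i).comp (Q i).red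
  red_surjective := (E.nrmEquiv i).symm.surjective.comp (Q i).red_surjective

@[simp] theorem normPlace_O (i : ι) : (E.normPlace i).O = (Q i).O := rfl

theorem nrmS_redF_normPlace (i : ι) (x : F) :
    E.nrmS i ((E.normPlace i).redF x) = (Q i).redF x := by
  by_cases hx : x ∈ (Q i).O
  · rw [(E.normPlace i).redF_of_mem (show x ∈ (E.normPlace i).O from hx), (Q i).redF_of_mem hx]
    show E.nrmEquiv i ((E.nrmEquiv i).symm ((Q i).red ⟨x, hx⟩)) = _
    rw [RingEquiv.apply_symm_apply]
  · rw [(E.normPlace i).redF_of_not_mem (show x ∉ (E.normPlace i).O from hx),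
      (Q i).redF_of_not_mem hx, map_zero]

/-- the raw reduction is `nrm` of the normalised one -/
theorem nrm_redF_normPlace (i : ι) (x : F) :
    nrm i ((E.normPlace i).redF x) = (((Q i).redF x : S i) : Ω) := by
  rw [← E.nrmS_redF_normPlace i x]
  rfl

/-- a normalised reduction is determined by its raw value -/
theorem redF_normPlace_eq (i : ι) {x : F} {z : κ i}
    (h : (((Q i).redF x : S i) : Ω) = nrm i z) : (E.normPlace i).redF x = z := by
  apply (nrm i).injective
  rw [E.nrm_redF_normPlace, h]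

/-- **the exact absolute data of the normalised places** -/
theorem absEstimates : AbsEstimates ψ ιs P' π (fun i => E.normPlace i) ϖ e where
  base := E.base
  fin := E.fin
  rows := fun i => ⟨E.mem i, fun y hy => E.redF_normPlace_eq i (E.red i y hy)⟩
  arch := E.arch
  ne := E.ne
  e_ne := E.e_ne
  unif_ne := E.unif_ne
  unif_lt := E.unif_lt
  ram_le := E.ram_le
  fin_ιs := E.fin_ιs
  deg_le := E.deg_le

end RawEstimates

end Fermat.Agent.S45lib.KMval
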