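/-
S45lib / KMval / TowerRam  (helper8, Project J)

**Relative ramification tables from absolute ones** (the `α`/`β` step tables of the Katz–Mazur
tower for free).

Tower of fields `F₀ ⊆ F₁ ⊆ F₂`, a place `P₀` of `F₀` with `𝔪₀ = (π)`, and EXACT ramified family
data with `∑ e f = n` (`Norm.RamDatum` + `hdeg`, e.g. from `FundPlace.PlaceWitness`) for both
`F₁ / F₀` (places `P₁ j`, `ϖ₁ j`, `e₁ j`) and `F₂ / F₀` (places `P₂ i`, `ϖ₂ i`, `e₂ i`); a map
`σ : ι₂ → ι₁` with `P₂ i` lying over `P₁ (σ i)` (residue towers `κ₀ → κ₁ (σ i) → κ₂ i`).  Then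

* `TowerRam.dvd`, `TowerRam.ramOver` : `e₁ (σ i) ∣ e₂ i` and
      `RamOver (P₁ (σ i)) (ϖ₁ (σ i)) (P₂ i) (ϖ₂ i) (e₂ i / e₁ (σ i))`
  (relative ramification index = quotient of the absolute ones);
* `TowerRam.sum_fiber_abs` : for every low place `j`,
      `∑_{σ i = j} e₂ i * [κ₂ i : κ₀] = e₁ j * [κ₁ j : κ₀] * [F₂ : F₁]`;
* `TowerRam.sum_fiber` : for every low place `j`,
      `∑_{σ i = j} (e₂ i / e₁ (σ i)) * [κ₂ i : κ₁ (σ i)] = [F₂ : F₁]`
  — the `hdeg` of `RamDatum.redF_norm` for the family of places over `P₁ j`.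

Proof of the last two: the relative fundamental INEQUALITY (`fundIneq_le`) at every `j`, and the
absolute EQUALITIES at both levels force equality at every `j`.
-/
import Mathlib
import Fermat.Agent.S36lib.Norm.RamWrap
import Fermat.Agent.S45lib.KMval.FundIneq

set_option autoImplicit false
set_option linter.unusedSectionVars false
set_option linter.style.haveILetI false

noncomputable section

namespace Fermat.Agent.S45lib.KMval

open Fermat.Agent.S36lib.Norm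

/-- in a rank one valuation ring with uniformizer `ϖ`, every nonzero integral element has the
valuation of a power of `ϖ` -/
theorem exists_pow_eq_of_isUnif {F : Type*} [Field F] {O : ValuationSubring F} (harch : IsArch O)
    {ϖ : F} (hϖ : IsUnif O ϖ) {y : F} (hy0 : y ≠ 0) (hy : O.valuation y ≤ 1) :
    ∃ n : ℕ, O.valuation y = O.valuation ϖ ^ n := by
  classical
  have hpos : 0 < O.valuation ϖ := zero_lt_iff.2 ((Valuation.ne_zero_iff _).2 hϖ.ne_zero)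
  have hypos : 0 < O.valuation y := zero_lt_iff.2 ((Valuation.ne_zero_iff _).2 hy0)
  have hex : ∃ n : ℕ, O.valuation ϖ ^ n ≤ O.valuation y := by
    obtain ⟨N, hN⟩ := harch ϖ hϖ.lt_one y⁻¹
    refine ⟨N, ?_⟩
    rwa [map_mul, map_pow, map_inv₀, mul_inv_le_iff₀ hypos, one_mul] at hN
  refine ⟨Nat.find hex, le_antisymm ?_ (Nat.find_spec hex)⟩
  rcases Nat.eq_zero_or_pos (Nat.find hex) with h0 | hpos'
  · rw [h0, pow_zero]
    exact hy
  · obtain ⟨m, hm⟩ : ∃ m, Nat.find hex = m + 1 := ⟨Nat.find hex - 1, by omega⟩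
    have hnot : ¬ O.valuation ϖ ^ m ≤ O.valuation y := Nat.find_min hex (by omega)
    have hlt : O.valuation y < O.valuation ϖ ^ m := not_le.1 hnot
    have hpm : 0 < O.valuation ϖ ^ m := pow_pos hpos _
    have h1 : O.valuation (y / ϖ ^ m) < 1 := by
      rwa [map_div₀, map_pow, div_lt_one₀ hpm]
    have h2 := hϖ.gen _ h1
    rw [map_div₀, map_pow, div_le_iff₀ hpm] at h2
    rw [hm, pow_succ']
    exact h2

section Tower

variable {F₀ F₁ F₂ : Type*} [Field F₀] [Field F₁] [Field F₂]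
variable [Algebra F₀ F₁] [Algebra F₁ F₂] [Algebra F₀ F₂] [IsScalarTower F₀ F₁ F₂]
variable {κ₀ : Type*} [Field κ₀]
variable {ι₁ : Type*} [Fintype ι₁] [DecidableEq ι₁]
variable {κ₁ : ι₁ → Type*} [∀ j, Field (κ₁ j)] [∀ j, Algebra κ₀ (κ₁ j)]
variable {ι₂ : Type*} [Fintype ι₂] [DecidableEq ι₂]
variable {κ₂ : ι₂ → Type*} [∀ i, Field (κ₂ i)] [∀ i, Algebra κ₀ (κ₂ i)]

/-- the hypotheses of the tower lemma -/
structure TowerRam (P₀ : Place F₀ κ₀) (π : F₀)
    (P₁ : ∀ j, Place F₁ (κ₁ j)) (ϖ₁ : ι₁ → F₁) (e₁ : ι₁ → ℕ)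
    (P₂ : ∀ i, Place F₂ (κ₂ i)) (ϖ₂ : ι₂ → F₂) (e₂ : ι₂ → ℕ)
    (σ : ι₂ → ι₁) [∀ i, Algebra (κ₁ (σ i)) (κ₂ i)] : Prop where
  low : RamDatum P₀ π P₁ ϖ₁ e₁
  top : RamDatum P₀ π P₂ ϖ₂ e₂
  liesOver : ∀ i, LiesOver (P₁ (σ i)) (P₂ i)

variable {P₀ : Place F₀ κ₀} {π : F₀}
  {P₁ : ∀ j, Place F₁ (κ₁ j)} {ϖ₁ : ι₁ → F₁} {e₁ : ι₁ → ℕ}
  {P₂ : ∀ i, Place F₂ (κ₂ i)} {ϖ₂ : ι₂ → F₂} {e₂ : ι₂ → ℕ}
  {σ : ι₂ → ι₁} [∀ i, Algebra (κ₁ (σ i)) (κ₂ i)]

namespace TowerRam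

variable (T : TowerRam P₀ π P₁ ϖ₁ e₁ P₂ ϖ₂ e₂ σ)
include T

theorem isUnif_low (j : ι₁) : IsUnif (P₁ j).O (ϖ₁ j) :=
  ⟨T.low.unif_ne_zero j, T.low.unif_lt j, T.low.unif_gen j⟩

theorem isUnif_top (i : ι₂) : IsUnif (P₂ i).O (ϖ₂ i) :=
  ⟨T.top.unif_ne_zero i, T.top.unif_lt i, T.top.unif_gen i⟩

/-- `v_i π = v_i (ϖ₁ (σ i)) ^ e₁ (σ i)` -/
theorem val_pi_eq (i : ι₂) :
    (P₂ i).O.valuation (algebraMap F₀ F₂ π) =
      (P₂ i).O.valuation (algebraMap F₁ F₂ (ϖ₁ (σ i))) ^ e₁ (σ i) := by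
  have h1 := T.low.ram (σ i)
  have hne : algebraMap F₀ F₁ π ≠ 0 := (map_ne_zero _).2 T.low.pi_ne
  have hne' : ϖ₁ (σ i) ^ e₁ (σ i) ≠ 0 := pow_ne_zero _ (T.low.unif_ne_zero _)
  rw [← map_pow] at h1
  have h2 := (T.liesOver i).val_le hne' h1.le
  have h3 := (T.liesOver i).val_le hne h1.ge
  rw [IsScalarTower.algebraMap_apply F₀ F₁ F₂, ← map_pow, ← map_pow]
  exact le_antisymm h2 h3

/-- the relative ramification exponent -/
theorem exists_rel (i : ι₂) :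
    ∃ r : ℕ, (P₂ i).O.valuation (algebraMap F₁ F₂ (ϖ₁ (σ i))) = (P₂ i).O.valuation (ϖ₂ i) ^ r ∧
      e₂ i = r * e₁ (σ i) := by
  have hx0 : algebraMap F₁ F₂ (ϖ₁ (σ i)) ≠ 0 := (map_ne_zero _).2 (T.low.unif_ne_zero _)
  have hx1 : (P₂ i).O.valuation (algebraMap F₁ F₂ (ϖ₁ (σ i))) < 1 :=
    (T.liesOver i).val_lt_one (T.low.unif_lt _)
  obtain ⟨r, hr⟩ := exists_pow_eq_of_isUnif (T.top.arch i) (T.isUnif_top i) hx0 hx1.le
  refine ⟨r, hr, ?_⟩
  have h1 := T.val_pi_eq i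
  rw [T.top.ram i, hr, ← pow_mul] at h1
  have hpos := T.top.unif_pos i
  have hlt := T.top.unif_lt i
  rcases lt_trichotomy (e₂ i) (r * e₁ (σ i)) with h | h | h
  · exact absurd h1 (ne_of_gt (pow_lt_pow_right_of_lt_one₀ hpos hlt h))
  · exact h
  · exact absurd h1 (ne_of_lt (pow_lt_pow_right_of_lt_one₀ hpos hlt h))

theorem dvd (i : ι₂) : e₁ (σ i) ∣ e₂ i := by
  obtain ⟨r, -, hr⟩ := T.exists_rel i
  exact ⟨r, by rw [hr, mul_comm]⟩

theorem ram_rel (i : ι₂) :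
    (P₂ i).O.valuation (algebraMap F₁ F₂ (ϖ₁ (σ i))) =
      (P₂ i).O.valuation (ϖ₂ i) ^ (e₂ i / e₁ (σ i)) := by
  obtain ⟨r, h1, hr⟩ := T.exists_rel i
  rw [hr, Nat.mul_div_cancel _ (Nat.pos_of_ne_zero (T.low.e_ne_zero _))]
  exact h1

/-- **the relative ramification datum of `P₂ i` over `P₁ (σ i)`.** -/
theorem ramOver (i : ι₂) :
    RamOver (P₁ (σ i)) (ϖ₁ (σ i)) (P₂ i) (ϖ₂ i) (e₂ i / e₁ (σ i)) where
  liesOver := T.liesOver i
  arch := T.top.arch i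
  unif := T.isUnif_top i
  ram := T.ram_rel i

end TowerRam

/-! ### the degree count in every fibre -/

section Degree

variable [∀ i, IsScalarTower κ₀ (κ₁ (σ i)) (κ₂ i)]
variable [FiniteDimensional F₀ F₁] [FiniteDimensional F₁ F₂]
variable [∀ j, Module.Finite κ₀ (κ₁ j)] [∀ i, Module.Finite κ₀ (κ₂ i)]

namespace TowerRam

variable (T : TowerRam P₀ π P₁ ϖ₁ e₁ P₂ ϖ₂ e₂ σ)
include T

omit [FiniteDimensional F₀ F₁] [FiniteDimensional F₁ F₂] [∀ j, Module.Finite κ₀ (κ₁ j)] in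
/-- the relative fundamental inequality over the low place `j` -/
theorem sum_fiber_le (j : ι₁) [FiniteDimensional F₁ F₂] :
    ∑ i ∈ Finset.univ.filter (fun i => σ i = j),
      (e₂ i / e₁ (σ i)) * Module.finrank (κ₁ (σ i)) (κ₂ i) ≤ Module.finrank F₁ F₂ := by
  classical
  haveI hfin : ∀ i, Module.Finite (κ₁ (σ i)) (κ₂ i) := fun i =>
    Module.Finite.right κ₀ (κ₁ (σ i)) (κ₂ i)
  -- lifts of bases of the relative residue extensions
  have hlift : ∀ i (a : Module.Free.ChooseBasisIndex (κ₁ (σ i)) (κ₂ i)), ∃ x : F₂,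
      x ∈ (P₂ i).O ∧ (P₂ i).redF x = Module.Free.chooseBasis (κ₁ (σ i)) (κ₂ i) a :=
    fun i a => (P₂ i).exists_redF_eq _
  choose ω hω1 hω2 using hlift
  have hσ : ∀ t : ↥(Finset.univ.filter (fun i => σ i = j)), σ t.1 = j := fun t =>
    (Finset.mem_filter.1 t.2).2
  have D : FIBase (P₁ j).O (ϖ₁ j)
      (fun t : ↥(Finset.univ.filter (fun i => σ i = j)) => (P₂ t.1).O) :=
    { pi_ne := T.low.unif_ne_zero j
      pi_gen := T.low.unif_gen j
      mem := by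
        intro t y hy
        obtain ⟨i, hi⟩ := t
        obtain rfl : σ i = j := (Finset.mem_filter.1 hi).2
        exact (T.liesOver i).mem y hy
      pi_lt := by
        intro t
        obtain ⟨i, hi⟩ := t
        obtain rfl : σ i = j := (Finset.mem_filter.1 hi).2
        exact (T.liesOver i).val_lt_one (T.low.unif_lt _)
      incomp := fun t t' hne => T.top.incomp t.1 t'.1 (fun h => hne (Subtype.ext h))
      arch := fun t => T.top.arch t.1 }
  have W : FIWitness (P₁ j).O (ϖ₁ j)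
      (fun t : ↥(Finset.univ.filter (fun i => σ i = j)) => (P₂ t.1).O)
      (fun t => ϖ₂ t.1) (fun t => e₂ t.1 / e₁ (σ t.1))
      (J := fun t => Module.Free.ChooseBasisIndex (κ₁ (σ t.1)) (κ₂ t.1))
      (fun t a => ω t.1 a) :=
    { unif_ne := fun t => T.top.unif_ne_zero t.1
      unif_lt := fun t => T.top.unif_lt t.1
      ram_le := by
        intro t
        obtain ⟨i, hi⟩ := t
        obtain rfl : σ i = j := (Finset.mem_filter.1 hi).2
        exact (T.ram_rel i).le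
      ω_mem := fun t a => hω1 t.1 a
      ω_indep := by
        intro t c hc hsum a
        obtain ⟨i, hi⟩ := t
        obtain rfl : σ i = j := (Finset.mem_filter.1 hi).2
        have hmem : ∀ a ∈ (Finset.univ : Finset (Module.Free.ChooseBasisIndex (κ₁ (σ i)) (κ₂ i))),
            c a • ω i a ∈ (P₂ i).O := fun a _ => (T.liesOver i).smul_mem (hc a) (hω1 i a)
        have h2 : (P₂ i).redF (∑ a, c a • ω i a) =
            ∑ a, (P₁ (σ i)).redF (c a) • Module.Free.chooseBasis (κ₁ (σ i)) (κ₂ i) a := by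
          rw [(P₂ i).redF_sum _ _ hmem]
          refine Finset.sum_congr rfl fun a _ => ?_
          rw [(T.liesOver i).redF_smul (hc a) (hω1 i a), hω2 i a]
        rw [(P₂ i).redF_eq_zero_of_lt hsum] at h2
        have h3 := Fintype.linearIndependent_iff.1
          (Module.Free.chooseBasis (κ₁ (σ i)) (κ₂ i)).linearIndependent _ h2.symm a
        exact ((P₁ (σ i)).redF_eq_zero_iff (hc a)).1 h3 }
  have h1 := fundIneq_le D W
  have h2 : ∑ t : ↥(Finset.univ.filter (fun i => σ i = j)), (e₂ t.1 / e₁ (σ t.1)) *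
      Fintype.card (Module.Free.ChooseBasisIndex (κ₁ (σ t.1)) (κ₂ t.1)) =
      ∑ i ∈ Finset.univ.filter (fun i => σ i = j),
        (e₂ i / e₁ (σ i)) * Module.finrank (κ₁ (σ i)) (κ₂ i) := by
    rw [← Finset.sum_coe_sort (Finset.univ.filter (fun i => σ i = j))
      (fun i => (e₂ i / e₁ (σ i)) * Module.finrank (κ₁ (σ i)) (κ₂ i))]
    refine Finset.sum_congr rfl fun t _ => ?_
    rw [Module.finrank_eq_card_chooseBasisIndex]
  rw [← h2]
  exact h1

omit [FiniteDimensional F₀ F₁] [FiniteDimensional F₁ F₂] [∀ j, Module.Finite κ₀ (κ₁ j)] in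
/-- the absolute local degree of `P₂ i` factors through `P₁ (σ i)` -/
theorem local_degree_mul (i : ι₂) :
    e₂ i * Module.finrank κ₀ (κ₂ i) =
      (e₁ (σ i) * Module.finrank κ₀ (κ₁ (σ i))) *
        ((e₂ i / e₁ (σ i)) * Module.finrank (κ₁ (σ i)) (κ₂ i)) := by
  obtain ⟨r, hr⟩ := T.dvd i
  have he : 0 < e₁ (σ i) := Nat.pos_of_ne_zero (T.low.e_ne_zero _)
  rw [hr, Nat.mul_div_cancel_left _ he, ← Module.finrank_mul_finrank κ₀ (κ₁ (σ i)) (κ₂ i)]
  ring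

variable (hdeg₁ : ∑ j, e₁ j * Module.finrank κ₀ (κ₁ j) = Module.finrank F₀ F₁)
  (hdeg₂ : ∑ i, e₂ i * Module.finrank κ₀ (κ₂ i) = Module.finrank F₀ F₂)
include hdeg₁ hdeg₂

/-- **the degree count in every fibre**: `∑_{σ i = j} (e₂ i / e₁ j) [κ₂ i : κ₁ j] = [F₂ : F₁]`. -/
theorem sum_fiber (j : ι₁) :
    ∑ i ∈ Finset.univ.filter (fun i => σ i = j),
      (e₂ i / e₁ (σ i)) * Module.finrank (κ₁ (σ i)) (κ₂ i) = Module.finrank F₁ F₂ := by
  classical
  set n := Module.finrank F₁ F₂ with hn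
  set S : ι₁ → ℕ := fun j => ∑ i ∈ Finset.univ.filter (fun i => σ i = j),
      (e₂ i / e₁ (σ i)) * Module.finrank (κ₁ (σ i)) (κ₂ i) with hS
  set d : ι₁ → ℕ := fun j => e₁ j * Module.finrank κ₀ (κ₁ j) with hd
  have hle : ∀ j ∈ (Finset.univ : Finset ι₁), d j * S j ≤ d j * n := fun j _ =>
    Nat.mul_le_mul_left _ (T.sum_fiber_le j)
  have htot : ∑ j, d j * S j = ∑ j, d j * n := by
    have h1 : ∑ j, d j * S j = ∑ i, e₂ i * Module.finrank κ₀ (κ₂ i) := by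
      rw [← Finset.sum_fiberwise Finset.univ σ (fun i => e₂ i * Module.finrank κ₀ (κ₂ i))]
      refine Finset.sum_congr rfl fun j _ => ?_
      rw [hS, Finset.mul_sum]
      refine Finset.sum_congr rfl fun i hi => ?_
      obtain rfl : σ i = j := (Finset.mem_filter.1 hi).2
      rw [T.local_degree_mul i]
    rw [h1, hdeg₂, ← Finset.sum_mul, hdeg₁, hn, Module.finrank_mul_finrank]
  have heq := (Finset.sum_eq_sum_iff_of_le hle).1 htot j (Finset.mem_univ j)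
  have hdpos : 0 < d j := by
    rw [hd]
    refine Nat.mul_pos (Nat.pos_of_ne_zero (T.low.e_ne_zero j)) Module.finrank_pos
  exact Nat.eq_of_mul_eq_mul_left hdpos heq

/-- the same count in absolute terms:
`∑_{σ i = j} e₂ i [κ₂ i : κ₀] = e₁ j [κ₁ j : κ₀] [F₂ : F₁]`. -/
theorem sum_fiber_abs (j : ι₁) :
    ∑ i ∈ Finset.univ.filter (fun i => σ i = j), e₂ i * Module.finrank κ₀ (κ₂ i) =
      e₁ j * Module.finrank κ₀ (κ₁ j) * Module.finrank F₁ F₂ := by
  rw [← T.sum_fiber hdeg₁ hdeg₂ j, Finset.mul_sum]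
  refine Finset.sum_congr rfl fun i hi => ?_
  obtain rfl : σ i = j := (Finset.mem_filter.1 hi).2
  rw [T.local_degree_mul i]

end TowerRam

end Degree

end Tower

end Fermat.Agent.S45lib.KMval
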