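/-
S45lib / KMval / RamOfPlace  (helper8)  --  Project J, (P-c): from a `Norm.Place` with a uniformizer to
a `Thick.RamGaussDatum`, and from `AbsEstimates` to helper9's `Inst.TowerReq`

* `exists_unit_mul_of_valuation_eq` : `v x = v y`, `y ≠ 0` ⟹ `x = y · unit`;
* `exists_zpow_mul_unit_of_isUnif`  : `IsArch O`, `IsUnif O ϖ` ⟹ every `f ≠ 0` is `ϖ ^ j · unit`;
* **`ramOfPlace R P ϖ harch hunif hmem hred : RamGaussDatum R F Fk`** with `O = P.O`, `red = P.red`,
  `unif = ϖ` (`ofRamGauss_ramOfPlace : ofRamGauss (ramOfPlace …) = P`,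
  `ramPlace_ramOfPlace : ramPlace (ramOfPlace …) = P`);
* `AbsEstimates.ramFamily` : the family `V i := ramOfPlace R (P i) (ϖ i) …` of an `AbsEstimates`;
* **`towerReq_of_absEstimates`** : `Inst.TowerReq hqM hA L V e ψ ιs` from
  `AbsEstimates ψ ιs (ofGauss gaussMK) q (ofRamGauss ∘ V) (unif ∘ V) e` + `ψ_const`, `ψ_j`,
  `ιs_const` — so the Tower only has to produce the PLACES with their rows, the ESTIMATE
  `vᵢ(q) ≤ vᵢ(ϖᵢ)^{eᵢ}`, distinctness and the count `deg ψ ≤ ∑ eᵢ deg(ιsᵢ)`.
-/
import Mathlib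
import Fermat.Agent.S45lib.KMval.AbsAlong
import Fermat.Agent.S45lib.KMval.TowerRam
import Fermat.Agent.S45lib.Inst.TowerReq

set_option autoImplicit false
set_option linter.unusedSectionVars false
set_option linter.unusedVariables false
set_option linter.style.haveILetI false

noncomputable section

namespace Fermat.Agent.S45lib.KMval

open Fermat.Agent.S36lib Fermat.Agent.S36lib.Norm
open Fermat.Agent.S36lib.Thick (RamGaussDatum)

/-! ### units from valuations -/

section Units

variable {F : Type*} [Field F]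

theorem exists_unit_mul_of_valuation_eq (O : ValuationSubring F) {x y : F} (hy : y ≠ 0)
    (h : O.valuation x = O.valuation y) : ∃ u : Oˣ, x = y * ((u : O) : F) := by
  have hx : x ≠ 0 := by
    intro hx
    rw [hx, map_zero] at h
    exact hy ((map_eq_zero _).1 h.symm)
  have hvy : O.valuation y ≠ 0 := (map_ne_zero _).2 hy
  have h1 : O.valuation (x * y⁻¹) = 1 := by
    rw [map_mul, map_inv₀, h]
    exact mul_inv_cancel₀ hvy
  have h2 : O.valuation (y * x⁻¹) = 1 := by
    rw [map_mul, map_inv₀, h]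
    exact mul_inv_cancel₀ hvy
  have m1 : x * y⁻¹ ∈ O := (O.valuation_le_one_iff _).1 h1.le
  have m2 : y * x⁻¹ ∈ O := (O.valuation_le_one_iff _).1 h2.le
  refine ⟨⟨⟨x * y⁻¹, m1⟩, ⟨y * x⁻¹, m2⟩, ?_, ?_⟩, ?_⟩
  · apply Subtype.ext
    show x * y⁻¹ * (y * x⁻¹) = 1
    field_simp
  · apply Subtype.ext
    show y * x⁻¹ * (x * y⁻¹) = 1
    field_simp
  · show x = y * (x * y⁻¹)
    field_simp

/-- a rank one valuation ring with a uniformizer is a discrete valuation ring -/
theorem exists_zpow_mul_unit_of_isUnif {O : ValuationSubring F} (harch : IsArch O) {ϖ : F}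
    (hunif : IsUnif O ϖ) (f : F) (hf : f ≠ 0) :
    ∃ (j : ℤ) (u : Oˣ), f = ϖ ^ j * ((u : O) : F) := by
  by_cases hle : O.valuation f ≤ 1
  · obtain ⟨m, hm⟩ := exists_pow_eq_of_isUnif harch hunif hf hle
    have h1 : O.valuation f = O.valuation (ϖ ^ (m : ℤ)) := by
      rw [zpow_natCast, map_pow]; exact hm
    obtain ⟨u, hu⟩ := exists_unit_mul_of_valuation_eq O
      (zpow_ne_zero _ hunif.ne_zero) h1
    exact ⟨m, u, hu⟩
  · have hf' : f⁻¹ ≠ 0 := inv_ne_zero hf
    have hle' : O.valuation f⁻¹ ≤ 1 := by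
      rw [map_inv₀]
      exact (inv_le_one_of_one_le₀ (le_of_lt (not_le.1 hle)))
    obtain ⟨m, hm⟩ := exists_pow_eq_of_isUnif harch hunif hf' hle'
    have h1 : O.valuation f = O.valuation (ϖ ^ (-(m : ℤ))) := by
      rw [zpow_neg, zpow_natCast, map_inv₀, map_pow, ← hm, map_inv₀, inv_inv]
    obtain ⟨u, hu⟩ := exists_unit_mul_of_valuation_eq O
      (zpow_ne_zero _ hunif.ne_zero) h1
    exact ⟨-(m : ℤ), u, hu⟩

end Units

/-! ### the ramified Gauss datum of a place with a uniformizer -/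

section RamOfPlace

variable {K : Type*} [Field K] (R : ValuationSubring K)
variable {F : Type*} [Field F] [Algebra K F]
variable {Fk : Type*} [Field Fk] [Algebra (IsLocalRing.ResidueField R) Fk]

/-- **the ramified Gauss datum of a rank one place with a uniformizer** -/
def ramOfPlace (P : Norm.Place F Fk) (ϖ : F) (harch : IsArch P.O) (hunif : IsUnif P.O ϖ)
    (hmem : ∀ c : K, algebraMap K F c ∈ P.O ↔ c ∈ R)
    (hred : ∀ (a : R) (h : algebraMap K F (a : K) ∈ P.O),
      P.red ⟨algebraMap K F (a : K), h⟩ =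
        algebraMap (IsLocalRing.ResidueField R) Fk (IsLocalRing.residue R a)) :
    RamGaussDatum R F Fk where
  O := P.O
  algebraMap_mem_iff := hmem
  red := P.red
  red_surjective := P.red_surjective
  red_algebraMap := hred
  unif := ϖ
  unif_mem := (P.O.valuation_le_one_iff ϖ).1 hunif.lt_one.le
  red_unif := by
    have h := P.redF_eq_zero_of_lt hunif.lt_one
    rwa [P.redF_of_mem ((P.O.valuation_le_one_iff ϖ).1 hunif.lt_one.le)] at h
  exists_zpow_mul_isUnit := exists_zpow_mul_unit_of_isUnif harch hunif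

variable (P : Norm.Place F Fk) (ϖ : F) (harch : IsArch P.O) (hunif : IsUnif P.O ϖ)
    (hmem : ∀ c : K, algebraMap K F c ∈ P.O ↔ c ∈ R)
    (hred : ∀ (a : R) (h : algebraMap K F (a : K) ∈ P.O),
      P.red ⟨algebraMap K F (a : K), h⟩ =
        algebraMap (IsLocalRing.ResidueField R) Fk (IsLocalRing.residue R a))

@[simp] theorem ramOfPlace_O : (ramOfPlace R P ϖ harch hunif hmem hred).O = P.O := rfl

@[simp] theorem ramOfPlace_red : (ramOfPlace R P ϖ harch hunif hmem hred).red = P.red := rfl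

@[simp] theorem ramOfPlace_unif : (ramOfPlace R P ϖ harch hunif hmem hred).unif = ϖ := rfl

theorem ofRamGauss_ramOfPlace : ofRamGauss (ramOfPlace R P ϖ harch hunif hmem hred) = P := rfl

theorem ramPlace_ramOfPlace : J.ramPlace (ramOfPlace R P ϖ harch hunif hmem hred) = P := rfl

end RamOfPlace

/-! ### the family of ramified Gauss data of a family of places with estimates -/

section Family

variable {K : Type*} [Field K] (R : ValuationSubring K)
variable {F' F : Type*} [Field F'] [Field F] [Algebra K F]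
variable {κ' : Type*} [Field κ']
variable {ι : Type*} [Fintype ι] [DecidableEq ι]
variable {κ : ι → Type*} [∀ i, Field (κ i)] [∀ i, Algebra (IsLocalRing.ResidueField R) (κ i)]
variable {ψ : F' →+* F} {ιs : ∀ i, κ' →+* κ i} {P' : Norm.Place F' κ'} {π : F'}
  {P : ∀ i, Norm.Place F (κ i)} {ϖ : ι → F} {e : ι → ℕ}

/-- the ramified Gauss data of the places of an `AbsEstimates` (the `ϖ i` ARE uniformizers) -/
def AbsEstimates.ramFamily (E : AbsEstimates ψ ιs P' π P ϖ e)
    (hmem : ∀ i (c : K), algebraMap K F c ∈ (P i).O ↔ c ∈ R)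
    (hred : ∀ i (a : R) (h : algebraMap K F (a : K) ∈ (P i).O),
      (P i).red ⟨algebraMap K F (a : K), h⟩ =
        algebraMap (IsLocalRing.ResidueField R) (κ i) (IsLocalRing.residue R a)) (i : ι) :
    RamGaussDatum R F (κ i) :=
  ramOfPlace R (P i) (ϖ i) (E.arch i) (E.isUnif i) (hmem i) (hred i)

theorem AbsEstimates.ramFamily_estimates (E : AbsEstimates ψ ιs P' π P ϖ e)
    (hmem : ∀ i (c : K), algebraMap K F c ∈ (P i).O ↔ c ∈ R)
    (hred : ∀ i (a : R) (h : algebraMap K F (a : K) ∈ (P i).O),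
      (P i).red ⟨algebraMap K F (a : K), h⟩ =
        algebraMap (IsLocalRing.ResidueField R) (κ i) (IsLocalRing.residue R a)) :
    AbsEstimates ψ ιs P' π (fun i => ofRamGauss (E.ramFamily R hmem hred i))
      (fun i => (E.ramFamily R hmem hred i).unif) e := E

end Family

/-! ### helper9's `TowerReq` from the estimates -/

section Req

open AlgebraicCurve ModularCurve IsLocalRing
open Fermat.Agent.S18lib Fermat.Agent.ProgramR
open Fermat.Agent.S36lib.Desc Fermat.Agent.S36lib.Desc2
open Fermat.Agent.S36lib.Inst (HI)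
open Fermat.Agent.S45lib.Inst (TowerReq jTopL)

local notation "Qb" => AlgebraicClosure ℚ

variable {M q : ℕ} [NeZero M] [NeZero q] [hq : Fact q.Prime] {A : ValuationSubring Qb}
variable {ι : Type*} [Fintype ι] [DecidableEq ι]

/-- **`TowerReq` from the estimates** (fundamental equality): the tower only has to produce the
places with their rows over the Gauss place of level `M`, the estimate
`vᵢ (q) ≤ vᵢ (ϖᵢ) ^ eᵢ`, distinctness, and the count `deg ψ ≤ ∑ eᵢ deg (ιs i)`. -/
theorem towerReq_of_absEstimates (hqM : ¬ q ∣ M) (hA : A.LiesOverPrime q) (L : ℕ) [NeZero L]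
    (V : ι → RamGaussDatum (Wfix A) (fixF L (HI A)) (FRes A M)) (e : ι → ℕ)
    (ψ : fixF M (HI A) →+* fixF L (HI A)) (ιs : ι → FRes A M →+* FRes A M)
    (E : AbsEstimates ψ ιs (ofGauss (gaussMK M A hqM hA)) (Mid.qFix A q M)
      (fun i => ofRamGauss (V i)) (fun i => (V i).unif) e)
    (ψ_const : ∀ c : Kfix A,
      ψ (algebraMap (Kfix A) (fixF M (HI A)) c) = algebraMap (Kfix A) (fixF L (HI A)) c)
    (ψ_j : ψ (jFixM M (HI A)) = jTopL L A)
    (ιs_const : ∀ i (c : ResidueField (Wfix A)),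
      ιs i (algebraMap (ResidueField (Wfix A)) (FRes A M) c) =
        algebraMap (ResidueField (Wfix A)) (FRes A M) c) :
    TowerReq hqM hA L V e ψ ιs where
  ψ_const := ψ_const
  ψ_j := ψ_j
  lies := E.lies
  ne := E.ne
  fin := E.fin
  fin_ιs := E.fin_ιs
  deg_sum := E.deg_sum
  ιs_const := ιs_const
  e_pos := fun i => Nat.pos_of_ne_zero (E.e_ne i)

end Req

end Fermat.Agent.S45lib.KMval
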