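/-
S45lib / KMval / StepAdapter  (helper8)  --  Project J, the (STEP) engine in the language of
`Chain/NormInst` (`StepDataK`)

* `ramOverAlong_of_row` : RELATIVE ramification from a restriction row and the two ABSOLUTE
  ramification equalities with respect to ONE element `p` of the low field (`p = q`, a constant):
  if `P` restricts to `P'` along `ψ` (`Reg.Row ψ ι P' P`), `v'(p) = v'(ϖ')^e'` and
  `v(ψ p) = v(ϖ)^e`, then `e' ∣ e` and `RamOverAlong ψ ι P' ϖ' P ϖ (e / e')`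
  (no base field, no witnesses);
* `ramOverAlong_of_unif_pow` : the same for two ramified Gauss data over `(K, R, π)` with
  `ϖ ^ e = π · unit` on both sides (fields `unif_pow`, `unif_pow'` of `Chain.ChainCtxK`);
* **`stepDataK_of_rows`** : `Chain.StepDataK D D' ψ a ιres ε f cN` from
  the rows `Reg.Row ψ (ιres i (a i)) (ramPlace (D'.V (a i))) (ramPlace (D.V i))`, the two `unif_pow`,
  `D.e i = ε i * D'.e (a i)`, the residue facts and the fibre count `hdeg`;
* `finrankHom_comp`, `finiteHom_comp` : tower law along homomorphisms;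
* `hdeg_of_abs` : the fibre count `∑_{a i = i'} ε i f i = deg ψ` from the two ABSOLUTE degree
  equalities (`TowerRam.sum_fiber`), in the instance-free language (`RamOverAlong`, `finrankHom`).
-/
import Mathlib
import Fermat.Agent.S45lib.KMval.TowerRam
import Fermat.Agent.S45lib.Chain.NormInst
import Fermat.Agent.S36lib.Reg.Rows

set_option autoImplicit false
set_option linter.unusedSectionVars false
set_option linter.unusedVariables false
set_option linter.style.haveILetI false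

noncomputable section

namespace Fermat.Agent.S45lib.KMval

open Fermat.Agent.S36lib Fermat.Agent.S36lib.Norm
open Fermat.Agent.S36lib.Thick (RamGaussDatum)
open Fermat.Agent.S36lib.J (BaseDVR ramPlace ram_isArch ram_unif_ne_zero)
open Fermat.Agent.LSb (HasValueAt)
open Fermat.Agent.S45lib.MThick Fermat.Agent.S45lib.Chain

/-! ### relative ramification from a row -/

section Row

variable {G F : Type*} [Field G] [Field F]
variable {κ' κ : Type*} [Field κ'] [Field κ]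
variable {ψ : G →+* F} {ι : κ' →+* κ} {P' : Norm.Place G κ'} {P : Norm.Place F κ}

theorem Row.liesOver (row : Reg.Row ψ ι P' P) :
    letI := ψ.toAlgebra
    letI := ι.toAlgebra
    LiesOver P' P :=
  letI := ψ.toAlgebra
  letI := ι.toAlgebra
  ⟨row.mem, row.red⟩

/-- **relative ramification from the absolute ones** -/
theorem ramOverAlong_of_row (row : Reg.Row ψ ι P' P) {ϖ' : G} {ϖ : F} {e' e : ℕ} (p : G)
    (hp : p ≠ 0) (hunif' : IsUnif P'.O ϖ') (hram' : P'.O.valuation p = P'.O.valuation ϖ' ^ e')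
    (he' : e' ≠ 0) (harch : IsArch P.O) (hunif : IsUnif P.O ϖ)
    (hram : P.O.valuation (ψ p) = P.O.valuation ϖ ^ e) :
    ∃ r : ℕ, e = r * e' ∧ RamOverAlong ψ ι P' ϖ' P ϖ r := by
  letI := ψ.toAlgebra
  letI := ι.toAlgebra
  have hL : LiesOver P' P := Row.liesOver row
  have hx0 : ψ ϖ' ≠ 0 := (map_ne_zero _).2 hunif'.ne_zero
  have hx1 : P.O.valuation (ψ ϖ') < 1 := hL.val_lt_one hunif'.lt_one
  obtain ⟨r, hr⟩ := exists_pow_eq_of_isUnif harch hunif hx0 hx1.le
  have hne' : ϖ' ^ e' ≠ 0 := pow_ne_zero _ hunif'.ne_zero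
  rw [← map_pow] at hram'
  have h2 : P.O.valuation (ψ p) ≤ P.O.valuation (ψ (ϖ' ^ e')) := hL.val_le hne' hram'.le
  have h3 : P.O.valuation (ψ (ϖ' ^ e')) ≤ P.O.valuation (ψ p) := hL.val_le hp hram'.ge
  have h1 : P.O.valuation ϖ ^ e = P.O.valuation ϖ ^ (r * e') := by
    rw [← hram, le_antisymm h2 h3, map_pow, map_pow, hr, ← pow_mul]
  have hpos : 0 < P.O.valuation ϖ :=
    zero_lt_iff.2 ((Valuation.ne_zero_iff _).2 hunif.ne_zero)
  have hlt := hunif.lt_one
  have he : e = r * e' := by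
    rcases lt_trichotomy e (r * e') with h | h | h
    · exact absurd h1 (ne_of_gt (pow_lt_pow_right_of_lt_one₀ hpos hlt h))
    · exact h
    · exact absurd h1 (ne_of_lt (pow_lt_pow_right_of_lt_one₀ hpos hlt h))
  exact ⟨r, he, ⟨row.mem, row.red, harch, hunif, hr⟩⟩

end Row

/-! ### two ramified Gauss data over the same base -/

section Ram

variable {K : Type*} [Field K] {R : ValuationSubring K}
variable {G F : Type*} [Field G] [Field F] [Algebra K G] [Algebra K F]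
variable {Gk Fk : Type*} [Field Gk] [Field Fk]
variable [Algebra (IsLocalRing.ResidueField R) Gk] [Algebra (IsLocalRing.ResidueField R) Fk]

/-- the relative datum of a top ramified Gauss datum `V` over a low one `V'` along a `K`-linear
`ψ`, from a row and `ϖ ^ e = π · unit` on both sides -/
theorem ramOverAlong_of_unif_pow {π : K} (B : BaseDVR R π) {ψ : G →+* F}
    (ψ_const : ∀ c : K, ψ (algebraMap K G c) = algebraMap K F c) {ιres : Gk →+* Fk}
    (V' : RamGaussDatum R G Gk) (V : RamGaussDatum R F Fk)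
    (row : Reg.Row ψ ιres (ramPlace V') (ramPlace V)) {e' e ε : ℕ} (he' : 0 < e')
    (hup' : ∃ u : V'.Oˣ, V'.unif ^ e' = algebraMap K G π * ((u : V'.O) : G))
    (hup : ∃ u : V.Oˣ, V.unif ^ e = algebraMap K F π * ((u : V.O) : F))
    (hε : e = ε * e') :
    RamOverAlong ψ ιres (ramPlace V') V'.unif (ramPlace V) V.unif ε := by
  have hunif' : IsUnif (ramPlace V').O V'.unif := isUnif_ofRamGauss V' (ram_unif_ne_zero B V')
  have hunif : IsUnif (ramPlace V).O V.unif := isUnif_ofRamGauss V (ram_unif_ne_zero B V)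
  have hp : algebraMap K G π ≠ 0 := (map_ne_zero _).2 B.π_ne_zero
  obtain ⟨r, hr, h⟩ := ramOverAlong_of_row row (algebraMap K G π) hp hunif'
    (ram_val_pi V' hup') (Nat.pos_iff_ne_zero.1 he') (ram_isArch B V) hunif
    (by rw [ψ_const]; exact ram_val_pi V hup)
  have : r = ε := Nat.eq_of_mul_eq_mul_right he' (hr.symm.trans hε)
  rw [← this]
  exact h

end Ram

/-! ### the step data from rows -/

section Step

variable {K : Type*} [Field K] {R : ValuationSubring K}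
variable {F : Type*} [Field F] [Algebra K F]
variable {ι : Type*} [Fintype ι] [DecidableEq ι] {Fk : ι → Type*} [∀ i, Field (Fk i)]
variable [∀ i, Algebra (IsLocalRing.ResidueField R) (Fk i)]
variable {G : Type*} [Field G] [Algebra K G]
variable {ι' : Type*} [Fintype ι'] [DecidableEq ι'] {Gk : ι' → Type*} [∀ i, Field (Gk i)]
variable [∀ i, Algebra (IsLocalRing.ResidueField R) (Gk i)]

local notation "k" => IsLocalRing.ResidueField R

/-- **THE STEP DATA FROM THE ROWS** of the step `ψ : G →+* F`: the relative ramification indices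
`ε` are forced by `D.e i = ε i * D'.e (a i)`. -/
theorem stepDataK_of_rows (D : MDatum R F ι Fk) (D' : MDatum R G ι' Gk) (B : BaseDVR R D.π)
    (hπ : D'.π = D.π) (ψ : G →+* F)
    (ψ_const : ∀ c : K, ψ (algebraMap K G c) = algebraMap K F c) (fin : FiniteHom ψ)
    (a : ι → ι') (ιres : ∀ (i : ι) (i' : ι'), Gk i' →+* Fk i) (ε f : ι → ℕ)
    (cN : Fin D.s → Fin D'.s)
    (rows : ∀ i, Reg.Row ψ (ιres i (a i)) (ramPlace (D'.V (a i))) (ramPlace (D.V i)))
    (e_pos' : ∀ i', 0 < D'.e i')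
    (unif_pow : ∀ i, ∃ u : (D.V i).Oˣ,
      D.ϖ i ^ D.e i = algebraMap K F D.π * ((u : (D.V i).O) : F))
    (unif_pow' : ∀ i', ∃ u : (D'.V i').Oˣ,
      D'.ϖ i' ^ D'.e i' = algebraMap K G D.π * ((u : (D'.V i').O) : G))
    (hε : ∀ i, D.e i = ε i * D'.e (a i))
    (ne : ∀ i j, i ≠ j → (D.V i).O ≠ (D.V j).O)
    (res_const : ∀ i (c : k), ιres i (a i) (algebraMap k (Gk (a i)) c) = algebraMap k (Fk i) c)
    (res_fin : ∀ i, FiniteHom (ιres i (a i)))
    (res_deg : ∀ i, finrankHom (ιres i (a i)) = f i)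
    (res_norm : ∀ i (z : Fk i), ιres i (a i) (resNorm (ιres i (a i)) z) = z ^ f i)
    (hdeg : ∀ i', ∑ i ∈ Finset.univ.filter (fun i => a i = i'), ε i * f i = finrankHom ψ)
    (pt : ∀ i c (z : Gk (a i)) (v : k), HasValueAt (D.x i c) (ιres i (a i) z) v →
      HasValueAt (D'.x (a i) (cN c)) z v) :
    StepDataK D D' ψ a ιres ε f cN where
  ψ_const := ψ_const
  fin := fin
  lies i := ramOverAlong_of_unif_pow B ψ_const (D'.V (a i)) (D.V i) (rows i) (e_pos' (a i))
    (unif_pow' (a i)) (unif_pow i) (hε i)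
  ne := ne
  res_const := res_const
  res_fin := res_fin
  res_deg := res_deg
  res_norm := res_norm
  hdeg := hdeg
  pt := pt

end Step

/-! ### the tower law along homomorphisms -/

section TowerLaw

variable {F₀ G F : Type*} [Field F₀] [Field G] [Field F]

theorem finrankHom_comp (ψ₁ : F₀ →+* G) (ψ : G →+* F) :
    finrankHom (ψ.comp ψ₁) = finrankHom ψ₁ * finrankHom ψ := by
  letI := ψ₁.toAlgebra
  letI := ψ.toAlgebra
  letI : Algebra F₀ F := (ψ.comp ψ₁).toAlgebra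
  haveI : IsScalarTower F₀ G F := IsScalarTower.of_algebraMap_eq (fun _ => rfl)
  exact (Module.finrank_mul_finrank F₀ G F).symm

theorem finiteHom_comp {ψ₁ : F₀ →+* G} {ψ : G →+* F} (h₁ : FiniteHom ψ₁) (h : FiniteHom ψ) :
    FiniteHom (ψ.comp ψ₁) := by
  letI := ψ₁.toAlgebra
  letI := ψ.toAlgebra
  letI : Algebra F₀ F := (ψ.comp ψ₁).toAlgebra
  haveI : IsScalarTower F₀ G F := IsScalarTower.of_algebraMap_eq (fun _ => rfl)
  haveI : FiniteDimensional F₀ G := h₁
  haveI : FiniteDimensional G F := h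
  exact FiniteDimensional.trans F₀ G F

end TowerLaw

/-! ### the fibre count from the two absolute degree equalities -/

section FibreCount

variable {F₀ G F : Type*} [Field F₀] [Field G] [Field F]
variable {κ₀ : Type*} [Field κ₀]
variable {ι₁ : Type*} [Fintype ι₁] [DecidableEq ι₁] {κ₁ : ι₁ → Type*} [∀ j, Field (κ₁ j)]
variable {ι₂ : Type*} [Fintype ι₂] [DecidableEq ι₂] {κ₂ : ι₂ → Type*} [∀ i, Field (κ₂ i)]

/-- **the fibre count of a step from the absolute data of the two levels** (`TowerRam.sum_fiber` in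
the instance-free language): if the places `P₁ j` are ALL the places of `G` over `P₀` along `ψ₁`
(`∑ e₁ f₁ = deg ψ₁`) and the places `P₂ i` ALL the places of `F` over `P₀` along `ψ ∘ ψ₁`
(`∑ e₂ f₂ = deg (ψ ∘ ψ₁)`), and `P₂ i` restricts to `P₁ (σ i)` along `ψ`, then on every fibre of `σ`
`∑ (e₂ i / e₁ (σ i)) [κ₂ i : κ₁ (σ i)] = deg ψ`. -/
theorem hdeg_of_abs {P₀ : Norm.Place F₀ κ₀} {π₀ : F₀} (hb : IsUnif P₀.O π₀)
    {ψ₁ : F₀ →+* G} {ψ : G →+* F}
    {P₁ : ∀ j, Norm.Place G (κ₁ j)} {ϖ₁ : ι₁ → G} {e₁ : ι₁ → ℕ}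
    {P₂ : ∀ i, Norm.Place F (κ₂ i)} {ϖ₂ : ι₂ → F} {e₂ : ι₂ → ℕ}
    {r₁ : ∀ j, κ₀ →+* κ₁ j} {r₂ : ∀ i, κ₀ →+* κ₂ i} {σ : ι₂ → ι₁}
    {ιres : ∀ i, κ₁ (σ i) →+* κ₂ i}
    (low : ∀ j, RamOverAlong ψ₁ (r₁ j) P₀ π₀ (P₁ j) (ϖ₁ j) (e₁ j))
    (ne₁ : ∀ i j, i ≠ j → (P₁ i).O ≠ (P₁ j).O)
    (top : ∀ i, RamOverAlong (ψ.comp ψ₁) (r₂ i) P₀ π₀ (P₂ i) (ϖ₂ i) (e₂ i))
    (ne₂ : ∀ i j, i ≠ j → (P₂ i).O ≠ (P₂ j).O)
    (rows : ∀ i, Reg.Row ψ (ιres i) (P₁ (σ i)) (P₂ i))
    (hcomp : ∀ i, r₂ i = (ιres i).comp (r₁ (σ i)))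
    (fin₁ : FiniteHom ψ₁) (fin : FiniteHom ψ)
    (finr₁ : ∀ j, FiniteHom (r₁ j)) (finr₂ : ∀ i, FiniteHom (r₂ i))
    (deg₁ : ∑ j, e₁ j * finrankHom (r₁ j) = finrankHom ψ₁)
    (deg₂ : ∑ i, e₂ i * finrankHom (r₂ i) = finrankHom (ψ.comp ψ₁)) (j : ι₁) :
    ∑ i ∈ Finset.univ.filter (fun i => σ i = j),
      (e₂ i / e₁ (σ i)) * finrankHom (ιres i) = finrankHom ψ := by
  letI := ψ₁.toAlgebra
  letI := ψ.toAlgebra
  letI : Algebra F₀ F := (ψ.comp ψ₁).toAlgebra
  haveI : IsScalarTower F₀ G F := IsScalarTower.of_algebraMap_eq (fun _ => rfl)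
  letI : ∀ j, Algebra κ₀ (κ₁ j) := fun j => (r₁ j).toAlgebra
  letI : ∀ i, Algebra κ₀ (κ₂ i) := fun i => (r₂ i).toAlgebra
  letI : ∀ i, Algebra (κ₁ (σ i)) (κ₂ i) := fun i => (ιres i).toAlgebra
  haveI : ∀ i, IsScalarTower κ₀ (κ₁ (σ i)) (κ₂ i) := fun i =>
    IsScalarTower.of_algebraMap_eq (fun x => by
      show r₂ i x = ιres i (r₁ (σ i) x)
      rw [hcomp i]
      rfl)
  haveI : FiniteDimensional F₀ G := fin₁
  haveI : FiniteDimensional G F := fin
  haveI : ∀ j, Module.Finite κ₀ (κ₁ j) := finr₁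
  haveI : ∀ i, Module.Finite κ₀ (κ₂ i) := finr₂
  have T : TowerRam P₀ π₀ P₁ ϖ₁ e₁ P₂ ϖ₂ e₂ σ :=
    { low := RamDatum.of_ramOver hb (fun j => (low j).toRamOver) ne₁
      top := RamDatum.of_ramOver hb (fun i => (top i).toRamOver) ne₂
      liesOver := fun i => Row.liesOver (rows i) }
  exact T.sum_fiber deg₁ deg₂ j

end FibreCount

end Fermat.Agent.S45lib.KMval
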