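/-
S45lib / KMval / VPow  (helper8)  --  Project J: the iterated Frobenius substitution `V ^ d` of
`κ = FRes A M` as a residue embedding (the `ιs i = V ^ (2 i - k)` of `Inst.TowerReq`)

* `finrankHom_id`, `finiteHom_id`, `finrankHom_pow`, `finiteHom_pow` (any field endomorphism);
* `finrankHom_VqR_pow : finrankHom (VqR hA ^ d) = q ^ d`, `finiteHom_VqR_pow`   (`fin_ιs`, `deg_sum`);
* `VqR_pow_algebraMap_resW` : `V ^ d` fixes the constants `kW`                   (`ιs_const`);
* `VqR_pow_jK : (VqR hA ^ d) j̄ = j̄ ^ q ^ d`                                       (`RedJK`).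
-/
import Mathlib
import Fermat.Agent.S45lib.KMval.StepAdapter
import Fermat.Agent.S45lib.KMval.StepRes

set_option autoImplicit false
set_option linter.unusedSectionVars false
set_option linter.unusedVariables false
set_option linter.style.haveILetI false

noncomputable section

namespace Fermat.Agent.S45lib.KMval

open AlgebraicCurve ModularCurve IsLocalRing
open Fermat.Agent.S18lib Fermat.Agent.ProgramR
open Fermat.Agent.LSb.Unit (VqR)
open Fermat.Agent.S36lib Fermat.Agent.S36lib.Inst Fermat.Agent.S36lib.Desc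
open Fermat.Agent.S36lib.Norm (FiniteHom finrankHom)

/-! ### powers of a field endomorphism -/

section Pow

variable {κ : Type*} [Field κ]

theorem finrankHom_id : finrankHom (RingHom.id κ) = 1 := by
  letI := (RingHom.id κ).toAlgebra
  exact Module.finrank_self κ

theorem finiteHom_id : FiniteHom (RingHom.id κ) := by
  letI := (RingHom.id κ).toAlgebra
  exact Module.Finite.self κ

theorem finrankHom_pow (ψ : κ →+* κ) (n : ℕ) : finrankHom (ψ ^ n) = finrankHom ψ ^ n := by
  induction n with
  | zero => rw [pow_zero, pow_zero]; exact finrankHom_id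
  | succ n ih =>
    have h : ψ ^ (n + 1) = ψ.comp (ψ ^ n) := by rw [pow_succ']; rfl
    rw [h, finrankHom_comp, ih, pow_succ]

theorem finiteHom_pow {ψ : κ →+* κ} (hψ : FiniteHom ψ) (n : ℕ) : FiniteHom (ψ ^ n) := by
  induction n with
  | zero => rw [pow_zero]; exact finiteHom_id
  | succ n ih =>
    have h : ψ ^ (n + 1) = ψ.comp (ψ ^ n) := by rw [pow_succ']; rfl
    rw [h]
    exact finiteHom_comp ih hψ

end Pow

/-! ### the iterated Frobenius substitution -/

local notation "Qb" => AlgebraicClosure ℚ

variable {M q : ℕ} [NeZero M] [NeZero q] [hq : Fact q.Prime] {A : ValuationSubring Qb}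

local notation "kW" => IsLocalRing.ResidueField (Wfix A)

theorem finrankHom_VqR_pow (hqM : ¬ q ∣ M) (hA : A.LiesOverPrime q) (d : ℕ) :
    finrankHom (VqR (M := M) hA ^ d) = q ^ d := by
  rw [finrankHom_pow, J.finrankHom_VqR hqM hA]

theorem finiteHom_VqR_pow (hqM : ¬ q ∣ M) (hA : A.LiesOverPrime q) (d : ℕ) :
    FiniteHom (VqR (M := M) hA ^ d) :=
  finiteHom_pow (J.finiteHom_VqR hqM hA) d

theorem VqR_pow_algebraMap_resW (hA : A.LiesOverPrime q) (d : ℕ) (c : kW) :
    (VqR hA ^ d) (algebraMap kW (FRes A M) c) = algebraMap kW (FRes A M) c := by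
  induction d with
  | zero => rw [SS.endPow_zero]
  | succ d ih => rw [SS.endPow_succ, ih, VqR_algebraMap_resW]

theorem VqR_pow_jK (hA : A.LiesOverPrime q) (d : ℕ) :
    (VqR hA ^ d) (Gink.jK A M) = Gink.jK A M ^ q ^ d :=
  SS.endPow_of_pow _ (LSb.Unit.VqR_jK hA) d

end Fermat.Agent.S45lib.KMval
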