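/-
S45lib / KMval / RawMin  (helper8)  --  Project J, Tower/Places: a SMALLER raw record

**`TowerRawMin` = helper6's `MThick.TowerRaw` WITHOUT the fields `pos_mem/pos_red` (for `k ≥ 1`),
`lift` and `ne`.**  These three follow from the consecutive raw rows `alpha_*`, `beta_*` and the
base row at level `M`, because helper9's positions are composites of the steps:
`posT (k+1) 0 = alphaFixT k ∘ posT k 0`, `posT (k+1) (k+1) = betaFixT k ∘ posT k k`.

* `TowerRawMin.bot_row` : `raw red_b (posT k 0 y) = VΩ^b (incl ȳ)`   (induction along `α`);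
* `TowerRawMin.top_row` : `raw red_b (posT k k y) = VΩ^(k-b) (incl ȳ)` (induction along `β`);
* `TowerRawMin.lift`    : `x = posT k 0 y` for `2b ≤ k`, `x = posT k k y` for `k ≤ 2b`;
* `TowerRawMin.ne`      : helper3's `G.places_ne_of_raw_table` with `x = j(z)`, `y = j(q^k z)`,
  `J = incl j̄` (pairwise different powers: `j̄` is transcendental);
* **`TowerRawMin.toTowerRaw : TowerRaw M q A hqM hA Ω incl VΩ`**, hence
  **`TowerRawMin.towerCore : TowerCore M q A hqM hA`**.

So the cusp-homomorphism side owes NO position identity (`cuspK k b ∘ posT k 0`, `… ∘ posT k k`),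
only the two consecutive-level identities, the base comparison at level `M` and at level `M q`,
the constants and the estimates.
-/
import Mathlib
import Fermat.Agent.S45lib.MThick.TowerRaw
import Fermat.Agent.S45lib.G.Distinct
import Fermat.Agent.S45lib.KMval.VPow

set_option autoImplicit false
set_option linter.unusedSectionVars false
set_option linter.unusedVariables false
set_option linter.style.haveILetI false

noncomputable section

namespace Fermat.Agent.S45lib.KMval

open ModularCurve IsLocalRing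
open Fermat.Agent.S18lib Fermat.Agent.ProgramR
open Fermat.Agent.S36lib
open Fermat.Agent.S36lib.Thick (RamGaussDatum)
open Fermat.Agent.S36lib.Desc Fermat.Agent.S36lib.Desc2
open Fermat.Agent.S36lib.Inst (HI qK)
open Fermat.Agent.S36lib.Norm (ofGauss ofRamGauss FiniteHom finrankHom IsUnif IsArch RamOverAlong jFixM)
open Fermat.Agent.LSb.Unit (VqR)
open Fermat.Agent.S45lib.Tower (lev alphaFixT betaFixT posT stepT)
open Fermat.Agent.S45lib.Chain (aAlpha aBeta fAlpha fBeta)
open Fermat.Agent.S45lib.CountK (eK)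
open Fermat.Agent.S45lib.MThick (TowerRaw TowerCore mN rawA rawB amb_pow_add amb_pow_incl)

local notation "Qb" => AlgebraicClosure ℚ

section Raw

variable (M q : ℕ) [NeZero M] [NeZero q] [hq : Fact q.Prime] (A : ValuationSubring Qb)

local notation "kW" => IsLocalRing.ResidueField (Wfix A)

/-- **THE MINIMAL RAW TOWER RECORD**: `MThick.TowerRaw` without `pos_*` (`k ≥ 1`), `lift`, `ne`. -/
structure TowerRawMin (hqM : ¬ q ∣ M) (hA : A.LiesOverPrime q) (Ω : Type*) [Field Ω]
    (incl : FRes A M →+* Ω) (VΩ : Ω →+* Ω) where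
  /-- the raw residue fields -/
  S : ∀ k : ℕ, Fin (k + 1) → Subfield Ω
  /-- the raw places -/
  Q : ∀ (k : ℕ) (b : Fin (k + 1)), Norm.Place (fixF (lev M q k) (HI A)) (S k b)
  /-- the candidate uniformizers -/
  ϖ : ∀ k : ℕ, Fin (k + 1) → fixF (lev M q k) (HI A)
  hV : ∀ z, VΩ (incl z) = incl (VqR (M := M) hA z)
  /-- level `M`: comparison with main's `gaussMK` -/
  base_mem : ∀ y : fixF M (HI A), y ∈ (ofGauss (gaussMK M A hqM hA)).O → y ∈ (Q 0 0).O
  base_red : ∀ y : fixF M (HI A), y ∈ (ofGauss (gaussMK M A hqM hA)).O →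
    (((Q 0 0).redF y : S 0 0) : Ω) = incl ((ofGauss (gaussMK M A hqM hA)).redF y)
  arch : ∀ (k : ℕ) (b : Fin (k + 1)), IsArch (Q k b).O
  unif_ne : ∀ (k : ℕ) (b : Fin (k + 1)), ϖ k b ≠ 0
  unif_lt : ∀ (k : ℕ) (b : Fin (k + 1)), (Q k b).O.valuation (ϖ k b) < 1
  ram_le : ∀ (k : ℕ) (b : Fin (k + 1)),
    (Q k b).O.valuation (algebraMap (Kfix A) (fixF (lev M q k) (HI A)) (qK A q)) ≤
      (Q k b).O.valuation (ϖ k b) ^ eK q k b
  const_mem : ∀ (k : ℕ) (b : Fin (k + 1)) (c : Kfix A),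
    algebraMap (Kfix A) (fixF (lev M q k) (HI A)) c ∈ (Q k b).O ↔ c ∈ Wfix A
  const_red : ∀ (k : ℕ) (b : Fin (k + 1)) (a : Wfix A),
    (((Q k b).redF (algebraMap (Kfix A) (fixF (lev M q k) (HI A)) (a : Kfix A)) : S k b) : Ω) =
      incl (algebraMap kW (FRes A M) (residue (Wfix A) a))
  alpha_mem : ∀ (j : ℕ) (b : Fin (j + 2)) (y : fixF (lev M q j) (HI A)),
    y ∈ (Q j (aAlpha j b)).O → alphaFixT M q (HI A) j y ∈ (Q (j + 1) b).O
  alpha_red : ∀ (j : ℕ) (b : Fin (j + 2)) (y : fixF (lev M q j) (HI A)),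
    y ∈ (Q j (aAlpha j b)).O →
      (((Q (j + 1) b).redF (alphaFixT M q (HI A) j y) : S (j + 1) b) : Ω) =
        (VΩ ^ rawA b) (((Q j (aAlpha j b)).redF y : S j (aAlpha j b)) : Ω)
  beta_mem : ∀ (j : ℕ) (b : Fin (j + 2)) (y : fixF (lev M q j) (HI A)),
    y ∈ (Q j (aBeta j b)).O → betaFixT M q (HI A) j y ∈ (Q (j + 1) b).O
  beta_red : ∀ (j : ℕ) (b : Fin (j + 2)) (y : fixF (lev M q j) (HI A)),
    y ∈ (Q j (aBeta j b)).O →
      (((Q (j + 1) b).redF (betaFixT M q (HI A) j y) : S (j + 1) b) : Ω) =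
        (VΩ ^ rawB j b) (((Q j (aBeta j b)).redF y : S j (aBeta j b)) : Ω)
  one_F_mem : ∀ y : fixF (M * q) (HI A),
    y ∈ (ofGauss (gaussOneK M q A hqM hA)).O → y ∈ (Q 1 0).O
  one_F_red : ∀ y : fixF (M * q) (HI A), y ∈ (ofGauss (gaussOneK M q A hqM hA)).O →
    (((Q 1 0).redF y : S 1 0) : Ω) = incl ((ofGauss (gaussOneK M q A hqM hA)).redF y)
  one_V_mem : ∀ y : fixF (M * q) (HI A),
    y ∈ (ofGauss (gaussTwoK M q A hqM hA)).O → y ∈ (Q 1 1).O
  one_V_red : ∀ y : fixF (M * q) (HI A), y ∈ (ofGauss (gaussTwoK M q A hqM hA)).O →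
    (((Q 1 1).redF y : S 1 1) : Ω) = incl ((ofGauss (gaussTwoK M q A hqM hA)).redF y)

end Raw

namespace TowerRawMin

variable {M q : ℕ} [NeZero M] [NeZero q] [hq : Fact q.Prime] {A : ValuationSubring Qb}
variable {hqM : ¬ q ∣ M} {hA : A.LiesOverPrime q} {Ω : Type*} [Field Ω]
variable {incl : FRes A M →+* Ω} {VΩ : Ω →+* Ω} (R : TowerRawMin M q A hqM hA Ω incl VΩ)

local notation "kW" => IsLocalRing.ResidueField (Wfix A)

/-- **the bottom position** `y ↦ y(z)`: raw reduction `VΩ^b`, by induction along `α` -/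
theorem bot_row : ∀ (k : ℕ) (b : Fin (k + 1)) (y : fixF M (HI A)),
    y ∈ (ofGauss (gaussMK M A hqM hA)).O →
      posT M q (HI A) k 0 y ∈ (R.Q k b).O ∧
        (((R.Q k b).redF (posT M q (HI A) k 0 y) : R.S k b) : Ω) =
          (VΩ ^ (b : ℕ)) (incl ((ofGauss (gaussMK M A hqM hA)).redF y))
  | 0, b, y, hy => by
    obtain rfl : b = 0 := Fin.ext (by have := b.2; simp only [Fin.val_zero]; omega)
    refine ⟨R.base_mem y hy, ?_⟩
    show (((R.Q 0 0).redF y : R.S 0 0) : Ω) = _
    rw [R.base_red y hy]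
    rfl
  | k + 1, b, y, hy => by
    obtain ⟨h1, h2⟩ := bot_row k (aAlpha k b) y hy
    rw [Tower.posT_succ_of_le M q (HI A) (Nat.zero_le k)]
    refine ⟨R.alpha_mem k b _ h1, ?_⟩
    rw [RingHom.comp_apply, R.alpha_red k b _ h1, h2, amb_pow_add]
    have e : rawA (b : ℕ) + ((aAlpha k b : Fin (k + 1)) : ℕ) = (b : ℕ) := by
      rw [Chain.aAlpha_val]
      unfold rawA
      split_ifs <;> omega
    rw [e]

/-- **the top position** `y ↦ y(q^k z)`: raw reduction `VΩ^(k-b)`, by induction along `β` -/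
theorem top_row : ∀ (k : ℕ) (b : Fin (k + 1)) (y : fixF M (HI A)),
    y ∈ (ofGauss (gaussMK M A hqM hA)).O →
      posT M q (HI A) k k y ∈ (R.Q k b).O ∧
        (((R.Q k b).redF (posT M q (HI A) k k y) : R.S k b) : Ω) =
          (VΩ ^ (k - (b : ℕ))) (incl ((ofGauss (gaussMK M A hqM hA)).redF y))
  | 0, b, y, hy => by
    obtain rfl : b = 0 := Fin.ext (by have := b.2; simp only [Fin.val_zero]; omega)
    refine ⟨R.base_mem y hy, ?_⟩
    show (((R.Q 0 0).redF y : R.S 0 0) : Ω) = _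
    rw [R.base_red y hy]
    rfl
  | k + 1, b, y, hy => by
    obtain ⟨h1, h2⟩ := top_row k (aBeta k b) y hy
    rw [Tower.posT_succ_last M q (HI A) k]
    refine ⟨R.beta_mem k b _ h1, ?_⟩
    rw [RingHom.comp_apply, R.beta_red k b _ h1, h2, amb_pow_add]
    have e : rawB k (b : ℕ) + (k - ((aBeta k b : Fin (k + 1)) : ℕ)) = k + 1 - (b : ℕ) := by
      rw [Chain.aBeta_val]
      have hb := b.2
      unfold rawB
      rcases Nat.lt_or_ge k (b : ℕ) with h | h
      · rw [min_eq_right h.le]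
        split_ifs <;> omega
      · rw [min_eq_left h]
        split_ifs <;> omega
    rw [e]

/-- the field `pos_red` of `TowerRaw` -/
theorem pos_red (k : ℕ) (b : Fin (k + 1)) (y : fixF M (HI A))
    (hy : y ∈ (ofGauss (gaussMK M A hqM hA)).O) :
    (((R.Q k b).redF (posT M q (HI A) k 0 y) : R.S k b) : Ω) =
      (VΩ ^ mN k b) (incl ((VqR (M := M) hA ^ (2 * (b : ℕ) - k))
        ((ofGauss (gaussMK M A hqM hA)).redF y))) := by
  rw [(R.bot_row k b y hy).2, ← amb_pow_incl R.hV, amb_pow_add]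
  have e : mN k (b : ℕ) + (2 * (b : ℕ) - k) = (b : ℕ) := by
    have hb := b.2
    unfold mN
    rcases Nat.lt_or_ge (k - (b : ℕ)) (b : ℕ) with h | h
    · rw [min_eq_left h.le]; omega
    · rw [min_eq_right h]; omega
  rw [e]

/-- the field `lift` of `TowerRaw` -/
theorem lift (k : ℕ) (b : Fin (k + 1)) (z : FRes A M) :
    ∃ x : fixF (lev M q k) (HI A),
      x ∈ (R.Q k b).O ∧ (((R.Q k b).redF x : R.S k b) : Ω) = (VΩ ^ mN k b) (incl z) := by
  obtain ⟨⟨y, hy⟩, hyz⟩ := (ofGauss (gaussMK M A hqM hA)).red_surjective z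
  have hred : (ofGauss (gaussMK M A hqM hA)).redF y = z := by
    rw [(ofGauss (gaussMK M A hqM hA)).redF_of_mem hy]
    exact hyz
  have hb := b.2
  rcases Nat.lt_or_ge (k - (b : ℕ)) (b : ℕ) with h | h
  · refine ⟨posT M q (HI A) k k y, (R.top_row k b y hy).1, ?_⟩
    rw [(R.top_row k b y hy).2, hred]
    have e : mN k (b : ℕ) = k - (b : ℕ) := by
      unfold mN
      exact min_eq_left h.le
    rw [e]
  · refine ⟨posT M q (HI A) k 0 y, (R.bot_row k b y hy).1, ?_⟩
    rw [(R.bot_row k b y hy).2, hred]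
    have e : mN k (b : ℕ) = (b : ℕ) := by
      unfold mN
      exact min_eq_right h
    rw [e]

omit R in
/-- `j` of level `M` is integral at the Gauss place (instance-free copy of helper9's
`Inst.TowerReq.jFixM_mem`) -/
theorem jFixM_mem' (hqM : ¬ q ∣ M) (hA : A.LiesOverPrime q) :
    jFixM M (HI A) ∈ (ofGauss (gaussMK M A hqM hA)).O :=
  ((compat_gaussMK M A hqM hA).mem _).2 (LSb.Frame.frameM (M := M) (q := q) hqM hA).y_mem

omit R in
/-- its reduction is `j̄` (instance-free copy of helper9's `Inst.TowerReq.redF_jFixM`) -/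
theorem redF_jFixM' (hqM : ¬ q ∣ M) (hA : A.LiesOverPrime q) :
    (ofGauss (gaussMK M A hqM hA)).redF (jFixM M (HI A)) = Gink.jK A M := by
  show (gaussMK M A hqM hA).redF (jFixM M (HI A)) = _
  rw [(compat_gaussMK M A hqM hA).red]
  exact (LSb.Frame.redF_jF hqM hA).trans (Fermat.Agent.S36lib.Val.jRes_eq_jK M A)

omit R in
/-- the ambient Frobenius on `incl j̄` -/
theorem amb_pow_jK (hV : ∀ z, VΩ (incl z) = incl (VqR (M := M) hA z)) (n : ℕ) :
    (VΩ ^ n) (incl (Gink.jK A M)) = incl (Gink.jK A M) ^ q ^ n := by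
  rw [amb_pow_incl hV, VqR_pow_jK hA, map_pow]

/-- the field `ne` of `TowerRaw` -/
theorem ne (k : ℕ) (b b' : Fin (k + 1)) (h : b ≠ b') : (R.Q k b).O ≠ (R.Q k b').O := by
  have hJ : ∀ m n : ℕ, incl (Gink.jK A M) ^ m = incl (Gink.jK A M) ^ n → m = n := by
    intro m n hmn
    rw [← map_pow, ← map_pow] at hmn
    exact G.pow_injective_of_transcendental (Gink.transcendental_jK A M) m n (incl.injective hmn)
  have hj := jFixM_mem' (M := M) hqM hA
  have hjr := redF_jFixM' (M := M) hqM hA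
  refine G.places_ne_of_raw_table (R.Q k) (fun c => (R.S k c).subtype)
    (posT M q (HI A) k 0 (jFixM M (HI A))) (posT M q (HI A) k k (jFixM M (HI A)))
    (incl (Gink.jK A M)) q hq.out.one_lt hJ
    (fun c => (R.bot_row k c _ hj).1) (fun c => (R.top_row k c _ hj).1) ?_ ?_ b b' h
  · intro c
    show (((R.Q k c).redF _ : R.S k c) : Ω) = _
    rw [(R.bot_row k c _ hj).2, hjr, amb_pow_jK R.hV]
  · intro c
    show (((R.Q k c).redF _ : R.S k c) : Ω) = _
    rw [(R.top_row k c _ hj).2, hjr, amb_pow_jK R.hV]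

/-- **the full raw record** -/
def toTowerRaw : TowerRaw M q A hqM hA Ω incl VΩ where
  S := R.S
  Q := R.Q
  ϖ := R.ϖ
  hV := R.hV
  pos_mem k b y hy := (R.bot_row k b y hy).1
  pos_red := R.pos_red
  lift := R.lift
  arch := R.arch
  ne := R.ne
  unif_ne := R.unif_ne
  unif_lt := R.unif_lt
  ram_le := R.ram_le
  const_mem := R.const_mem
  const_red := R.const_red
  alpha_mem := R.alpha_mem
  alpha_red := R.alpha_red
  beta_mem := R.beta_mem
  beta_red := R.beta_red
  one_F_mem := R.one_F_mem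
  one_F_red := R.one_F_red
  one_V_mem := R.one_V_mem
  one_V_red := R.one_V_red

/-- **the tower record from the minimal raw record** -/
def towerCore : TowerCore M q A hqM hA := R.toTowerRaw.towerCore

end TowerRawMin

end Fermat.Agent.S45lib.KMval
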