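/-
S45lib / KMval / StepTable  (helper8)  --  Project J, the RELATIVE ramification indices of the two
steps `α, β : level j → level j + 1` (companion of helper2's `Chain/Table`)

`ε_α(b) = e_b / e'_{b-1}`, `ε_β(b) = e_b / e'_{min b j}` with `e = eK q (j+1)`, `e' = eK q j`:

* `epsAlpha q j b` `= 1` (`b = 0`), `q - 1` (`b = 1`), `1` (`j + 2 ≤ 2 b`: `V`-fibres), `q` otherwise;
* `epsBeta q j b`  `= 1` (`b = j + 1`), `q - 1` (`b = j`), `1` (`2 b ≤ j`: `V`-fibres), `q` otherwise;
* `eK_eq_epsAlpha_mul`, `eK_eq_epsBeta_mul` : `e_b = ε(b) · e'_{a(b)}`   (`1 ≤ j`);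
* `epsAlpha_mul_fAlpha`, `epsBeta_mul_fBeta` : `ε · f = t` (`tAlpha`, `tBeta` of `Chain/Table`);
* `sum_fibre_alpha`, `sum_fibre_beta` : `∑_{a(b) = b'} ε(b) f(b) = q`   (field `hdeg` of
  `Chain.StepDataK`, `deg ψ = q`).
-/
import Mathlib
import Fermat.Agent.S45lib.Chain.Table

set_option autoImplicit false

namespace Fermat.Agent.S45lib.KMval

open Finset Fermat.Agent.S45lib.CountK Fermat.Agent.S45lib.Chain

/-- the relative ramification index of the top component `b` over the low component `b - 1`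
along `α` -/
def epsAlpha (q j : ℕ) (b : Fin (j + 2)) : ℕ :=
  if (b : ℕ) = 0 then 1 else if (b : ℕ) = 1 then q - 1 else if j + 2 ≤ 2 * (b : ℕ) then 1 else q

/-- the relative ramification index of the top component `b` over the low component `min b j`
along `β` -/
def epsBeta (q j : ℕ) (b : Fin (j + 2)) : ℕ :=
  if (b : ℕ) = j + 1 then 1 else if (b : ℕ) = j then q - 1 else if 2 * (b : ℕ) ≤ j then 1 else q

theorem totient_pow_succ_eq {q : ℕ} (hq : q.Prime) (m : ℕ) (hm : 1 ≤ m) :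
    Nat.totient (q ^ (m + 1)) = q * Nat.totient (q ^ m) := by
  obtain ⟨r, rfl⟩ : ∃ r, m = r + 1 := ⟨m - 1, by omega⟩
  exact totient_pow_succ_succ hq r

/-- `e_b = ε_α(b) · e'_{b-1}` -/
theorem eK_eq_epsAlpha_mul {q j : ℕ} (hq : q.Prime) (hj : 1 ≤ j) (b : Fin (j + 2)) :
    eK q (j + 1) b = epsAlpha q j b * eK q j ((b : ℕ) - 1) := by
  have hb2 := b.2
  unfold epsAlpha
  split_ifs with h0 h1 h2
  · rw [h0, one_mul]
    unfold eK
    simp
  · rw [h1]
    unfold eK
    have e1 : min 1 (j + 1 - 1) = 1 := by omega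
    have e2 : min (1 - 1) (j - (1 - 1)) = 0 := by omega
    rw [e1, e2, pow_one, pow_zero, Nat.totient_prime hq, Nat.totient_one, mul_one]
  · rw [one_mul]
    unfold eK
    have e1 : min (b : ℕ) (j + 1 - b) = j + 1 - b := by omega
    have e2 : min ((b : ℕ) - 1) (j - ((b : ℕ) - 1)) = j + 1 - b := by omega
    rw [e1, e2]
  · unfold eK
    have e1 : min (b : ℕ) (j + 1 - b) = ((b : ℕ) - 1) + 1 := by omega
    have e2 : min ((b : ℕ) - 1) (j - ((b : ℕ) - 1)) = (b : ℕ) - 1 := by omega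
    rw [e1, e2, totient_pow_succ_eq hq _ (by omega)]

/-- `e_b = ε_β(b) · e'_{min b j}` -/
theorem eK_eq_epsBeta_mul {q j : ℕ} (hq : q.Prime) (hj : 1 ≤ j) (b : Fin (j + 2)) :
    eK q (j + 1) b = epsBeta q j b * eK q j (min (b : ℕ) j) := by
  have hb2 := b.2
  unfold epsBeta
  split_ifs with h0 h1 h2
  · rw [h0, one_mul]
    unfold eK
    have e1 : min (j + 1) (j + 1 - (j + 1)) = 0 := by omega
    have e2 : min (min (j + 1) j) (j - min (j + 1) j) = 0 := by omega
    rw [e1, e2]
  · rw [h1]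
    unfold eK
    have e1 : min j (j + 1 - j) = 1 := by omega
    have e2 : min (min j j) (j - min j j) = 0 := by omega
    rw [e1, e2, pow_one, pow_zero, Nat.totient_prime hq, Nat.totient_one, mul_one]
  · rw [one_mul]
    unfold eK
    have e1 : min (b : ℕ) (j + 1 - b) = b := by omega
    have e2 : min (min (b : ℕ) j) (j - min (b : ℕ) j) = b := by omega
    rw [e1, e2]
  · unfold eK
    have e1 : min (b : ℕ) (j + 1 - b) = (j - b) + 1 := by omega
    have e2 : min (min (b : ℕ) j) (j - min (b : ℕ) j) = j - b := by omega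
    rw [e1, e2, totient_pow_succ_eq hq _ (by omega)]

/-- `ε_α · f_α = t_α` -/
theorem epsAlpha_mul_fAlpha {q j : ℕ} (hj : 1 ≤ j) (b : Fin (j + 2)) :
    epsAlpha q j b * fAlpha q j b = tAlpha q j b := by
  unfold epsAlpha fAlpha tAlpha
  split_ifs <;> omega

/-- `ε_β · f_β = t_β` -/
theorem epsBeta_mul_fBeta {q j : ℕ} (hj : 1 ≤ j) (b : Fin (j + 2)) :
    epsBeta q j b * fBeta q j b = tBeta q j b := by
  have hb2 := b.2
  unfold epsBeta fBeta tBeta
  split_ifs <;> omega

/-- the fibre count along `α`: `∑_{b - 1 = b'} ε_α(b) f_α(b) = q` -/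
theorem sum_fibre_alpha {q j : ℕ} (hq : q.Prime) (hj : 1 ≤ j) (b' : Fin (j + 1)) :
    ∑ b ∈ univ.filter (fun b => aAlpha j b = b'), epsAlpha q j b * fAlpha q j b = q := by
  have hq1 := hq.one_le
  simp_rw [epsAlpha_mul_fAlpha hj]
  by_cases h0 : (b' : ℕ) = 0
  · have hb' : b' = 0 := Fin.ext h0
    rw [hb', filter_aAlpha_zero, sum_pair (by
      intro h
      have := congrArg (fun x : Fin (j + 2) => (x : ℕ)) h
      simp at this)]
    have h1v : ((1 : Fin (j + 2)) : ℕ) = 1 := by simp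
    unfold tAlpha
    rw [if_pos (by simp), if_neg (by rw [h1v]; omega), if_pos h1v]
    omega
  · have hb'2 := b'.2
    set b : Fin (j + 2) := ⟨(b' : ℕ) + 1, by omega⟩ with hb
    have hab : aAlpha j b = b' := Fin.ext (by simp [hb])
    have hb2 : 2 ≤ (b : ℕ) := by simp only [hb]; omega
    rw [← hab, filter_aAlpha_of_two_le hb2, sum_singleton]
    unfold tAlpha
    rw [if_neg (by omega), if_neg (by omega)]

/-- the fibre count along `β`: `∑_{min b j = b'} ε_β(b) f_β(b) = q` -/
theorem sum_fibre_beta {q j : ℕ} (hq : q.Prime) (hj : 1 ≤ j) (b' : Fin (j + 1)) :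
    ∑ b ∈ univ.filter (fun b => aBeta j b = b'), epsBeta q j b * fBeta q j b = q := by
  have hq1 := hq.one_le
  simp_rw [epsBeta_mul_fBeta hj]
  have hb'2 := b'.2
  by_cases h0 : (b' : ℕ) = j
  · have hb' : b' = Fin.last j := Fin.ext (by rw [h0, Fin.val_last])
    rw [hb', filter_aBeta_last, sum_pair (by
      intro h
      have := congrArg (fun x : Fin (j + 2) => (x : ℕ)) h
      simp at this)]
    unfold tBeta
    have h1 : (((Fin.last j).castSucc : Fin (j + 2)) : ℕ) = j := by simp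
    have h2 : ((Fin.last (j + 1) : Fin (j + 2)) : ℕ) = j + 1 := by simp
    rw [if_neg (by rw [h1]; omega), if_pos h1, if_pos h2]
    omega
  · set b : Fin (j + 2) := ⟨(b' : ℕ), by omega⟩ with hb
    have hbj : (b : ℕ) < j := by simp only [hb]; omega
    have hab : aBeta j b = b' := Fin.ext (by simp only [aBeta_val, hb]; omega)
    rw [← hab, filter_aBeta_of_lt hbj, sum_singleton]
    unfold tBeta
    rw [if_neg (by omega), if_neg (by omega)]

end Fermat.Agent.S45lib.KMval
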