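/-
S45lib / KMval / StepMod  (helper8)  --  Project J, THE STEP DATA OF THE MODULAR TOWER
(`Chain.StepDataK` for `α` and `β : level j → level j + 1`) FROM THE ROWS

Top datum `D` (components `Fin (j + 2)`, `e = eK q (j + 1)`), low datum `D'` (components
`Fin (j + 1)`, `e = eK q j`) over `(Kfix A, Wfix A)`, all residue function fields `FRes A M`; the
function fields `F`, `G` and the step `ψ : G →+* F` (of degree `q`) are ABSTRACT, so that any spelling
of the levels can be plugged in.  Inputs from the tower: the restriction rows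

  `Reg.Row ψ (ιresK hA (isV b)) (ramPlace (D'.V (a b))) (ramPlace (D.V b))`

(`a = aAlpha j`, `isV b = (j + 2 ≤ 2 b)` along `α`; `a = aBeta j`, `isV b = (2 b ≤ j)` along `β`),
distinctness of the top places, the two `unif_pow`, and the field `pt` (for the multipoints
`SS.xK` it is `KMval.pt_alpha` / `KMval.pt_beta`).

* `stepDataK_alpha_of_rows` : `StepDataK D D' ψ (aAlpha j) _ (epsAlpha q j) (fAlpha q j) cN`;
* `stepDataK_beta_of_rows`  : `StepDataK D D' ψ (aBeta j) _ (epsBeta q j) (fBeta q j) cN`.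
-/
import Mathlib
import Fermat.Agent.S45lib.KMval.StepAdapter
import Fermat.Agent.S45lib.KMval.StepRes
import Fermat.Agent.S45lib.KMval.StepTable

set_option autoImplicit false
set_option linter.unusedSectionVars false
set_option linter.unusedVariables false
set_option linter.style.haveILetI false

noncomputable section

namespace Fermat.Agent.S45lib.KMval

open AlgebraicCurve ModularCurve IsLocalRing
open Fermat.Agent.S18lib Fermat.Agent.ProgramR
open Fermat.Agent.LSb (HasValueAt)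
open Fermat.Agent.LSb.Unit (VqR)
open Fermat.Agent.S36lib Fermat.Agent.S36lib.Inst Fermat.Agent.S36lib.Desc
open Fermat.Agent.S36lib.Norm (FiniteHom finrankHom)
open Fermat.Agent.S36lib.J (BaseDVR ramPlace)
open Fermat.Agent.S45lib.MThick Fermat.Agent.S45lib.Chain Fermat.Agent.S45lib.CountK

local notation "Qb" => AlgebraicClosure ℚ

variable {M q : ℕ} [NeZero M] [NeZero q] [hq : Fact q.Prime] {A : ValuationSubring Qb}
variable {F G : Type*} [Field F] [Field G] [Algebra (Kfix A) F] [Algebra (Kfix A) G]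
variable {j : ℕ}

local notation "kW" => IsLocalRing.ResidueField (Wfix A)

/-- **the step data along `α`** -/
theorem stepDataK_alpha_of_rows (hqM : ¬ q ∣ M) (hA : A.LiesOverPrime q) (hj : 1 ≤ j)
    (D : MDatum (Wfix A) F (Fin (j + 2)) (fun _ => FRes A M))
    (D' : MDatum (Wfix A) G (Fin (j + 1)) (fun _ => FRes A M))
    (B : BaseDVR (Wfix A) D.π) (hπ : D'.π = D.π) (ψ : G →+* F)
    (ψ_const : ∀ c : Kfix A, ψ (algebraMap (Kfix A) G c) = algebraMap (Kfix A) F c)
    (fin : FiniteHom ψ) (hdegψ : finrankHom ψ = q) (cN : Fin D.s → Fin D'.s)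
    (he : ∀ b, D.e b = eK q (j + 1) b) (he' : ∀ b', D'.e b' = eK q j b')
    (rows : ∀ b : Fin (j + 2), Reg.Row ψ (ιresK hA (j + 2 ≤ 2 * (b : ℕ)))
      (ramPlace (D'.V (aAlpha j b))) (ramPlace (D.V b)))
    (unif_pow : ∀ i, ∃ u : (D.V i).Oˣ,
      D.ϖ i ^ D.e i = algebraMap (Kfix A) F D.π * ((u : (D.V i).O) : F))
    (unif_pow' : ∀ i', ∃ u : (D'.V i').Oˣ,
      D'.ϖ i' ^ D'.e i' = algebraMap (Kfix A) G D.π * ((u : (D'.V i').O) : G))
    (ne : ∀ i l, i ≠ l → (D.V i).O ≠ (D.V l).O)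
    (pt : ∀ (b : Fin (j + 2)) c (z : FRes A M) (v : kW),
      HasValueAt (D.x b c) (ιresK hA (j + 2 ≤ 2 * (b : ℕ)) z) v →
        HasValueAt (D'.x (aAlpha j b) (cN c)) z v) :
    StepDataK D D' ψ (aAlpha j) (fun b _ => ιresK hA (j + 2 ≤ 2 * (b : ℕ)))
      (epsAlpha q j) (fAlpha q j) cN := by
  refine stepDataK_of_rows D D' B hπ ψ ψ_const fin (aAlpha j) _ (epsAlpha q j) (fAlpha q j) cN
    rows (fun b' => ?_) unif_pow unif_pow' (fun b => ?_) ne (fun b c => ιresK_const hA _ c)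
    (fun b => finiteHom_ιresK hqM hA _) (fun b => finrankHom_ιresK hqM hA _)
    (fun b z => ιresK_resNorm hqM hA _ z) (fun b' => ?_) pt
  · rw [he']; exact eK_pos hq.out.pos _ _
  · rw [he, he', aAlpha_val]; exact eK_eq_epsAlpha_mul hq.out hj b
  · rw [hdegψ]; exact sum_fibre_alpha hq.out hj b'

/-- **the step data along `β`** -/
theorem stepDataK_beta_of_rows (hqM : ¬ q ∣ M) (hA : A.LiesOverPrime q) (hj : 1 ≤ j)
    (D : MDatum (Wfix A) F (Fin (j + 2)) (fun _ => FRes A M))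
    (D' : MDatum (Wfix A) G (Fin (j + 1)) (fun _ => FRes A M))
    (B : BaseDVR (Wfix A) D.π) (hπ : D'.π = D.π) (ψ : G →+* F)
    (ψ_const : ∀ c : Kfix A, ψ (algebraMap (Kfix A) G c) = algebraMap (Kfix A) F c)
    (fin : FiniteHom ψ) (hdegψ : finrankHom ψ = q) (cN : Fin D.s → Fin D'.s)
    (he : ∀ b, D.e b = eK q (j + 1) b) (he' : ∀ b', D'.e b' = eK q j b')
    (rows : ∀ b : Fin (j + 2), Reg.Row ψ (ιresK hA (2 * (b : ℕ) ≤ j))
      (ramPlace (D'.V (aBeta j b))) (ramPlace (D.V b)))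
    (unif_pow : ∀ i, ∃ u : (D.V i).Oˣ,
      D.ϖ i ^ D.e i = algebraMap (Kfix A) F D.π * ((u : (D.V i).O) : F))
    (unif_pow' : ∀ i', ∃ u : (D'.V i').Oˣ,
      D'.ϖ i' ^ D'.e i' = algebraMap (Kfix A) G D.π * ((u : (D'.V i').O) : G))
    (ne : ∀ i l, i ≠ l → (D.V i).O ≠ (D.V l).O)
    (pt : ∀ (b : Fin (j + 2)) c (z : FRes A M) (v : kW),
      HasValueAt (D.x b c) (ιresK hA (2 * (b : ℕ) ≤ j) z) v →
        HasValueAt (D'.x (aBeta j b) (cN c)) z v) :
    StepDataK D D' ψ (aBeta j) (fun b _ => ιresK hA (2 * (b : ℕ) ≤ j))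
      (epsBeta q j) (fBeta q j) cN := by
  refine stepDataK_of_rows D D' B hπ ψ ψ_const fin (aBeta j) _ (epsBeta q j) (fBeta q j) cN
    rows (fun b' => ?_) unif_pow unif_pow' (fun b => ?_) ne (fun b c => ιresK_const hA _ c)
    (fun b => finiteHom_ιresK hqM hA _) (fun b => finrankHom_ιresK hqM hA _)
    (fun b z => ιresK_resNorm hqM hA _ z) (fun b' => ?_) pt
  · rw [he']; exact eK_pos hq.out.pos _ _
  · rw [he, he', aBeta_val]; exact eK_eq_epsBeta_mul hq.out hj b
  · rw [hdegψ]; exact sum_fibre_beta hq.out hj b'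

end Fermat.Agent.S45lib.KMval
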